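import Fermat.Agent.EC.TateInertia
import Mathlib.Algebra.CharP.Lemmas
import Mathlib.Algebra.Polynomial.Coeff
import Mathlib.Algebra.Polynomial.AlgebraMap
import Mathlib.Algebra.Polynomial.Degree.Operations

/-!
# The kernel of reduction of `y² + xy = x³ + c` in residue characteristic `p`

The coordinate `r = y / (y + x)` is multiplicative on the kernel of reduction up to an error of
size `v c · M³`, where `M` bounds `v (r - 1)`.  When `v c ≤ v p` this forces `v (r - 1)^(p-1) = v p`
on nonzero `p`-torsion, hence at most `p` points of `p`-torsion in the kernel of reduction, and so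
on the identity component: reduction is of height one.
-/

set_option autoImplicit false

noncomputable section

namespace Fermat.Agent.EC.TateTheta

open WeierstrassCurve IsLocalRing

variable {K : Type*} [Field K] {A : ValuationSubring K} {c : K}

/-- The kernel of reduction: `O` and the points with `v x > 1`. -/
def IsE1 (A : ValuationSubring K) : (tateModel c).toAffine.Point → Prop
  | 0 => True
  | .some x _ _ => 1 < A.valuation x

/-- The multiplicative coordinate `y / (y + x)`. -/
def rVal : (tateModel c).toAffine.Point → K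
  | 0 => 1
  | .some x y _ => y / (y + x)

lemma rVal_zero : rVal (0 : (tateModel c).toAffine.Point) = 1 := rfl

lemma IsE1.isE0 {P : (tateModel c).toAffine.Point} (h : IsE1 A P) : IsE0 A P := by
  rcases P with _ | ⟨x, y, hP⟩
  · trivial
  · exact (show 1 < A.valuation x from h).le

variable (hc : A.valuation c < 1)

include hc in
/-- `v (r - 1)³ = (v y)⁻¹` and `v (r - 1)² = (v x)⁻¹` in the kernel of reduction. -/
lemma e1_facts {x y : K} (he : y * (y + x) = x ^ 3 + c) (hx : 1 < A.valuation x) :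
    A.valuation (y / (y + x) - 1) < 1 ∧
      A.valuation (y / (y + x) - 1) ^ 3 = (A.valuation y)⁻¹ ∧
      A.valuation (y / (y + x) - 1) ^ 2 = (A.valuation x)⁻¹ ∧
      A.valuation (y / (y + x)) = 1 := by
  obtain ⟨heq, hsq, hy1, hy0, hyx0⟩ := good_facts hc he hx.le
  have e : y / (y + x) - 1 = -x / (y + x) := by field_simp; ring
  have hypos : 0 < A.valuation y := zero_lt_one.trans_le hy1
  have hxpos : 0 < A.valuation x := zero_lt_one.trans hx
  have hw : A.valuation (y / (y + x) - 1) = A.valuation x / A.valuation y := by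
    rw [e, map_div₀, A.valuation.map_neg, ← heq]
  refine ⟨?_, ?_, ?_, by rw [map_div₀, ← heq, div_self hypos.ne']⟩
  · rw [hw, div_lt_one₀ hypos]
    by_contra hge
    rw [not_lt] at hge
    have := pow_le_pow_left₀ zero_le hge 2
    rw [hsq] at this
    exact this.not_gt (pow_lt_pow_right₀ hx (by norm_num))
  · rw [hw, div_pow, ← hsq, sq, div_eq_iff (pow_ne_zero 3 hypos.ne'), pow_succ, pow_two,
      mul_comm (A.valuation y * A.valuation y) (A.valuation y), ← mul_assoc,
      inv_mul_cancel₀ hypos.ne', one_mul]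
  · rw [hw, div_pow, hsq, sq, pow_succ, pow_two, div_eq_iff (mul_ne_zero (mul_ne_zero hxpos.ne'
      hxpos.ne') hxpos.ne'), ← mul_assoc, ← mul_assoc, inv_mul_cancel₀ hxpos.ne', one_mul]

include hc in
lemma valuation_rVal_sub_one_lt {P : (tateModel c).toAffine.Point} (hP : IsE1 A P) :
    A.valuation (rVal P - 1) < 1 := by
  rcases P with _ | ⟨x, y, h⟩
  · show A.valuation ((1 : K) - 1) < 1
    rw [sub_self, map_zero]; exact zero_lt_one
  · exact (e1_facts hc ((tateModel_equation_iff c x y).mp h.left) hP).1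

include hc in
lemma valuation_rVal {P : (tateModel c).toAffine.Point} (hP : IsE1 A P) :
    A.valuation (rVal P) = 1 := valuation_of_approx_one (valuation_rVal_sub_one_lt hc hP)

include hc in
lemma rVal_ne_zero {P : (tateModel c).toAffine.Point} (hP : IsE1 A P) : rVal P ≠ 0 := by
  intro h
  have := valuation_rVal hc hP
  rw [h, map_zero] at this
  exact zero_ne_one this

include hc in
lemma rVal_ne_one {P : (tateModel c).toAffine.Point} (hP : IsE1 A P) (hP0 : P ≠ 0) :
    rVal P ≠ 1 := by
  rcases P with _ | ⟨x, y, h⟩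
  · exact absurd rfl hP0
  intro h1
  have h2 := (e1_facts hc ((tateModel_equation_iff c x y).mp h.left) hP).2.2.1
  rw [show y / (y + x) = (1 : K) from h1, sub_self, map_zero, zero_pow two_ne_zero,
    eq_comm, inv_eq_zero] at h2
  exact (zero_lt_one.trans (show 1 < A.valuation x from hP)).ne' h2

include hc in
set_option linter.unusedSectionVars false in
lemma IsE1.neg {P : (tateModel c).toAffine.Point} (hP : IsE1 A P) :
    IsE1 A (-P) ∧ rVal (-P) = (rVal P)⁻¹ := by
  rcases P with _ | ⟨x, y, h⟩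
  · exact ⟨trivial, inv_one.symm⟩
  · rw [Affine.Point.neg_some]
    refine ⟨hP, ?_⟩
    show (tateModel c).toAffine.negY x y / ((tateModel c).toAffine.negY x y + x) = (y / (y + x))⁻¹
    rw [tateModel_negY, inv_div, show -y - x + x = -y by ring, show -y - x = -(y + x) by ring,
      neg_div_neg_eq]

variable (hc0 : c ≠ 0) [DecidableEq K]

include hc0 hc in
lemma isE1_iff {P : (tateModel c).toAffine.Point} : IsE1 A P ↔ thetaFun A hc0 P = 1 := by
  rcases P with _ | ⟨x, y, h⟩
  · exact iff_of_true trivial rfl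
  · rw [thetaFun_eq_one_iff hc0 hc h, ← A.valuation_le_one_iff, not_le]
    rfl

include hc0 hc in
lemma IsE1.add {P Q : (tateModel c).toAffine.Point} (hP : IsE1 A P) (hQ : IsE1 A Q) :
    IsE1 A (P + Q) := by
  rw [isE1_iff hc hc0] at hP hQ ⊢
  rw [thetaFun_add hc0 hc, hP, hQ, one_mul]

include hc0 hc in
lemma IsE1.sub {P Q : (tateModel c).toAffine.Point} (hP : IsE1 A P) (hQ : IsE1 A Q) :
    IsE1 A (P - Q) := by
  rw [sub_eq_add_neg]; exact hP.add hc hc0 (hQ.neg hc).1

include hc0 hc in
/-- **Approximate multiplicativity** of `r` on the kernel of reduction. -/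
lemma rVal_add_approx {P Q : (tateModel c).toAffine.Point} (hP : IsE1 A P) (hQ : IsE1 A Q)
    {M : A.ValueGroup} (hPM : A.valuation (rVal P - 1) ≤ M) (hQM : A.valuation (rVal Q - 1) ≤ M)
    (hM : M ≤ 1) :
    A.valuation (rVal (P + Q) - rVal P * rVal Q) ≤ A.valuation c * M ^ 3 := by
  have hR : IsE1 A (P + Q) := hP.add hc hc0 hQ
  rcases P with _ | ⟨x₁, y₁, h₁⟩
  · show A.valuation (rVal Q - 1 * rVal Q) ≤ _
    rw [one_mul, sub_self, map_zero]
    exact zero_le
  rcases Q with _ | ⟨x₂, y₂, h₂⟩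
  · show A.valuation (rVal (Affine.Point.some x₁ y₁ h₁) -
      rVal (Affine.Point.some x₁ y₁ h₁) * 1) ≤ _
    rw [mul_one, sub_self, map_zero]
    exact zero_le
  by_cases hxy : x₁ = x₂ ∧ y₁ = (tateModel c).toAffine.negY x₂ y₂
  · rw [Affine.Point.add_of_Y_eq hxy.1 hxy.2, rVal_zero]
    have hPQ : (Affine.Point.some x₁ y₁ h₁) = -(Affine.Point.some x₂ y₂ h₂) := by
      rw [Affine.Point.neg_some]; simp [hxy.1, hxy.2]
    rw [hPQ, (hQ.neg hc).2, inv_mul_cancel₀ (rVal_ne_zero hc hQ), sub_self, map_zero]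
    exact zero_le
  rw [Affine.Point.add_some hxy] at hR ⊢
  obtain ⟨hcol, hy2⟩ := collinear_slope h₁.left h₂.left hxy
  set l := (tateModel c).toAffine.slope x₁ x₂ y₁ y₂ with hl
  set x₃ := (tateModel c).toAffine.addX x₁ x₂ l
  set m := y₁ - l * x₁ with hm
  have e1 : l * x₁ + m = y₁ := by rw [hm]; ring
  have e2 : l * x₂ + m = y₂ := by rw [hm, hy2]; ring
  have e3 : (tateModel c).toAffine.negAddY x₁ x₂ y₁ l = l * x₃ + m := by
    simp only [Affine.negAddY, hm]; ring
  have hx₁ : 1 < A.valuation x₁ := hP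
  have hx₂ : 1 < A.valuation x₂ := hQ
  have hx₃ : 1 < A.valuation x₃ := hR
  obtain ⟨hw1, hw13, hw12, -⟩ := e1_facts hc ((tateModel_equation_iff c x₁ y₁).mp h₁.left) hx₁
  obtain ⟨hw2, hw23, hw22, -⟩ := e1_facts hc ((tateModel_equation_iff c x₂ y₂).mp h₂.left) hx₂
  have he3 : (l * x₃ + m) * (l * x₃ + m + x₃) = x₃ ^ 3 + c := hcol.equation₃
  obtain ⟨hw3, hw33, hw32, hv3⟩ := e1_facts hc he3 hx₃
  obtain ⟨hv3eq, -, -, hy30, hyx30⟩ := good_facts hc he3 hx₃.le
  obtain ⟨hv1eq, -, -, hy10, hyx10⟩ :=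
    good_facts hc ((tateModel_equation_iff c x₁ y₁).mp h₁.left) hx₁.le
  obtain ⟨hv2eq, -, -, hy20, hyx20⟩ :=
    good_facts hc ((tateModel_equation_iff c x₂ y₂).mp h₂.left) hx₂.le
  have hd : y₁ * y₂ * (l * x₃ + m) - (y₁ + x₁) * (y₂ + x₂) * (l * x₃ + m + x₃) =
      c * (3 * l ^ 2 + 3 * l + 1) := by
    rw [← e1, ← e2]
    linear_combination (-m ^ 2) * hcol.e₁ - m * (2 * l + 1) * hcol.e₂
      - (3 * l ^ 2 + 3 * l + 1) * hcol.e₃
  set w₁ := A.valuation (y₁ / (y₁ + x₁) - 1) with hw1def
  set w₂ := A.valuation (y₂ / (y₂ + x₂) - 1) with hw2def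
  set w₃ := A.valuation ((l * x₃ + m) / (l * x₃ + m + x₃) - 1) with hw3def
  -- the third point is `-(P + Q)`
  have hgoal : A.valuation (rVal (Affine.Point.some x₃ _ (Affine.nonsingular_add h₁ h₂ hxy)) -
      rVal (Affine.Point.some x₁ y₁ h₁) * rVal (Affine.Point.some x₂ y₂ h₂)) =
      A.valuation c * A.valuation (3 * l ^ 2 + 3 * l + 1) * (w₁ ^ 3 * w₂ ^ 3 * w₃ ^ 3) := by
    show A.valuation ((tateModel c).toAffine.addY x₁ x₂ y₁ l /
      ((tateModel c).toAffine.addY x₁ x₂ y₁ l + x₃) - y₁ / (y₁ + x₁) * (y₂ / (y₂ + x₂))) = _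
    rw [Affine.addY, e3, tateModel_negY]
    set Y := l * x₃ + m with hY
    have hsub : (-Y - x₃) / (-Y - x₃ + x₃) - y₁ / (y₁ + x₁) * (y₂ / (y₂ + x₂)) =
        -((y₁ * y₂ * Y - (y₁ + x₁) * (y₂ + x₂) * (Y + x₃)) / (Y * (y₁ + x₁) * (y₂ + x₂))) := by
      rw [show -Y - x₃ + x₃ = -Y by ring, show -Y - x₃ = -(Y + x₃) by ring, neg_div_neg_eq]
      field_simp
      ring
    rw [hsub, A.valuation.map_neg, map_div₀, hd, map_mul, map_mul, map_mul, ← hv1eq, ← hv2eq,
      div_eq_mul_inv, mul_inv, mul_inv, ← hw13, ← hw23, ← hw33]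
    simp only [mul_comm, mul_left_comm, mul_assoc]
  refine le_of_eq_of_le hgoal ?_
  rw [mul_assoc]
  gcongr
  change w₁ ≤ M at hPM
  change w₂ ≤ M at hQM
  have h23 : w₃ ^ 3 ≤ 1 := pow_le_one₀ zero_le hw3.le
  have h3le : A.valuation (3 : K) ≤ 1 :=
    (A.valuation_le_one_iff _).mpr (natCast_mem A.toSubring 3)
  have hpoly : A.valuation (3 * l ^ 2 + 3 * l + 1) ≤ max 1 (A.valuation l ^ 2) := by
    refine A.valuation.map_add_le (A.valuation.map_add_le ?_ ?_) ?_
    · rw [map_mul, map_pow]
      exact (mul_le_of_le_one_left zero_le h3le).trans (le_max_right _ _)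
    · rw [map_mul]
      refine (mul_le_of_le_one_left zero_le h3le).trans ?_
      rcases le_total (A.valuation l) 1 with h | h
      · exact h.trans (le_max_left _ _)
      · exact (le_self_pow₀ h two_ne_zero).trans (le_max_right _ _)
    · rw [map_one]; exact le_max_left _ _
  have hMpow : ∀ k, 3 ≤ k → M ^ k ≤ M ^ 3 := fun k hk => pow_le_pow_of_le_one zero_le hM hk
  rcases le_or_gt (A.valuation l) 1 with hl1 | hl1
  · calc A.valuation (3 * l ^ 2 + 3 * l + 1) * (w₁ ^ 3 * w₂ ^ 3 * w₃ ^ 3)
        ≤ 1 * (M ^ 3 * 1 * 1) :=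
          mul_le_mul' (hpoly.trans (max_le le_rfl (pow_le_one₀ zero_le hl1)))
            (mul_le_mul' (mul_le_mul' (pow_le_pow_left₀ zero_le hPM 3)
              (pow_le_one₀ zero_le hw2.le)) h23)
      _ = M ^ 3 := by simp only [mul_one, one_mul]
  · have hl2 : A.valuation (l ^ 2 + l) = A.valuation l ^ 2 := by
      rw [← map_pow]
      apply A.valuation.map_add_eq_of_lt_left
      rw [map_pow]
      exact lt_self_pow₀ hl1 (by norm_num)
    have hp2 : A.valuation (3 * l ^ 2 + 3 * l + 1) ≤ A.valuation l ^ 2 :=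
      hpoly.trans (max_le (one_le_pow₀ hl1.le) le_rfl)
    have hmax : A.valuation l ^ 2 ≤
        max (max (A.valuation x₁) (A.valuation x₂)) (A.valuation x₃) := by
      rw [← hl2, ← hcol.e₁]
      exact A.valuation.map_add_le ((A.valuation.map_add _ _).trans (le_max_left _ _))
        (le_max_right _ _)
    -- `v x · w³ = w`
    have hxw : ∀ {vx w : A.ValueGroup}, 0 < vx → w ^ 2 = vx⁻¹ → vx * w ^ 3 = w := by
      intro vx w hvx h
      rw [pow_succ, h, ← mul_assoc, mul_inv_cancel₀ hvx.ne', one_mul]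
    have h11 := hxw (zero_lt_one.trans hx₁) hw12
    have h22 := hxw (zero_lt_one.trans hx₂) hw22
    have h33 := hxw (zero_lt_one.trans hx₃) hw32
    refine (mul_le_mul' (hp2.trans hmax) le_rfl).trans ?_
    rcases max_choice (max (A.valuation x₁) (A.valuation x₂)) (A.valuation x₃) with h | h <;>
      rw [h]
    · rcases max_choice (A.valuation x₁) (A.valuation x₂) with h' | h' <;> rw [h']
      · calc A.valuation x₁ * (w₁ ^ 3 * w₂ ^ 3 * w₃ ^ 3)
            = (A.valuation x₁ * w₁ ^ 3) * w₂ ^ 3 * w₃ ^ 3 := by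
              simp only [mul_comm, mul_left_comm, mul_assoc]
          _ ≤ M * M ^ 3 * 1 := by
              rw [h11]
              exact mul_le_mul' (mul_le_mul' hPM (pow_le_pow_left₀ zero_le hQM 3)) h23
          _ ≤ M ^ 3 := by rw [mul_one, ← pow_succ']; exact hMpow 4 (by norm_num)
      · calc A.valuation x₂ * (w₁ ^ 3 * w₂ ^ 3 * w₃ ^ 3)
            = w₁ ^ 3 * (A.valuation x₂ * w₂ ^ 3) * w₃ ^ 3 := by
              simp only [mul_comm, mul_left_comm, mul_assoc]
          _ ≤ M ^ 3 * M * 1 := by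
              rw [h22]
              exact mul_le_mul' (mul_le_mul' (pow_le_pow_left₀ zero_le hPM 3) hQM) h23
          _ ≤ M ^ 3 := by rw [mul_one, ← pow_succ]; exact hMpow 4 (by norm_num)
    · calc A.valuation x₃ * (w₁ ^ 3 * w₂ ^ 3 * w₃ ^ 3)
          = w₁ ^ 3 * w₂ ^ 3 * (A.valuation x₃ * w₃ ^ 3) := by
            simp only [mul_comm, mul_left_comm, mul_assoc]
        _ ≤ M ^ 3 * M ^ 3 * 1 := by
            rw [h33]
            exact mul_le_mul' (mul_le_mul' (pow_le_pow_left₀ zero_le hPM 3)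
              (pow_le_pow_left₀ zero_le hQM 3)) hw3.le
        _ ≤ M ^ 3 := by rw [mul_one, ← pow_add]; exact hMpow 6 (by norm_num)

include hc0 hc in
lemma rVal_nsmul_approx {P : (tateModel c).toAffine.Point} (hP : IsE1 A P) (m : ℕ) :
    IsE1 A (m • P) ∧ A.valuation (rVal (m • P) - 1) ≤ A.valuation (rVal P - 1) ∧
      A.valuation (rVal (m • P) - rVal P ^ m) ≤
        A.valuation c * A.valuation (rVal P - 1) ^ 3 := by
  induction m with
  | zero => simp [rVal_zero, IsE1]
  | succ m ih =>
    obtain ⟨hm1, hmw, hmr⟩ := ih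
    set w := A.valuation (rVal P - 1) with hw
    have hw1 : w ≤ 1 := (valuation_rVal_sub_one_lt hc hP).le
    have hadd := rVal_add_approx hc hc0 hm1 hP hmw le_rfl hw1
    rw [succ_nsmul]
    have hcw : A.valuation c * w ^ 3 ≤ w :=
      (mul_le_of_le_one_left zero_le hc.le).trans (pow_le_of_le_one zero_le hw1 (by norm_num))
    refine ⟨hm1.add hc hc0 hP, ?_, ?_⟩
    · have e : rVal (m • P + P) - 1 = (rVal (m • P + P) - rVal (m • P) * rVal P) +
          ((rVal (m • P) - 1) * rVal P + (rVal P - 1)) := by ring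
      rw [e]
      refine A.valuation.map_add_le (hadd.trans hcw) (A.valuation.map_add_le ?_ le_rfl)
      rw [map_mul, valuation_rVal hc hP, mul_one]
      exact hmw
    · have e : rVal (m • P + P) - rVal P ^ (m + 1) =
          (rVal (m • P + P) - rVal (m • P) * rVal P) + (rVal (m • P) - rVal P ^ m) * rVal P := by
        ring
      rw [e]
      refine A.valuation.map_add_le hadd ?_
      rw [map_mul, valuation_rVal hc hP, mul_one]
      exact hmr

variable {p : ℕ}

/-- `(1 + w)^p = 1 + w^p + p w + p w² s` with `s ∈ A`. -/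
lemma exists_one_add_pow_eq (hp : p.Prime) {w : K} (hw : w ∈ A) :
    ∃ s ∈ A, (1 + w) ^ p = 1 + w ^ p + p * w + p * w ^ 2 * s := by
  obtain ⟨r, hr⟩ := exists_add_pow_prime_eq hp (1 : Polynomial ℤ) Polynomial.X
  have hr0 : r.coeff 0 = 1 := by
    have h := congrArg (fun f : Polynomial ℤ => f.coeff 1) hr
    simp only [Polynomial.coeff_one_add_X_pow, Nat.choose_one_right, mul_one, one_pow,
      Polynomial.coeff_add, Polynomial.coeff_one, one_ne_zero, if_false, zero_add,
      Polynomial.coeff_X_pow, if_neg hp.one_lt.ne] at h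
    rw [show ((p : Polynomial ℤ) * Polynomial.X * r) = Polynomial.C (p : ℤ) * (r * Polynomial.X) by
      rw [map_natCast]; ring, Polynomial.coeff_C_mul, Polynomial.coeff_mul_X] at h
    have : (p : ℤ) * r.coeff 0 = (p : ℤ) * 1 := by rw [mul_one]; exact h.symm
    exact mul_left_cancel₀ (by exact_mod_cast hp.ne_zero) this
  obtain ⟨s, hs⟩ : Polynomial.X ∣ r - 1 := by
    rw [Polynomial.X_dvd_iff, Polynomial.coeff_sub, Polynomial.coeff_one_zero, hr0, sub_self]
  refine ⟨((Polynomial.aeval (⟨w, hw⟩ : A) s : A) : K), SetLike.coe_mem _, ?_⟩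
  rw [sub_eq_iff_eq_add'] at hs
  rw [hs] at hr
  have h := congrArg (Polynomial.aeval (⟨w, hw⟩ : A)) hr
  simp only [map_pow, map_add, map_one, map_mul, map_natCast, Polynomial.aeval_X, one_pow] at h
  have h' := congrArg Subtype.val h
  push_cast at h'
  rw [h']
  ring

variable (hp : p.Prime) (hpA : A.valuation (p : K) < 1) (hp0 : (p : K) ≠ 0)
  (hcp : A.valuation c ≤ A.valuation (p : K))

include hc hc0 hp hp0 hcp in
/-- For nonzero `p`-torsion in the kernel of reduction, `(r - 1)^(p-1) ≈ -p`. -/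
lemma torsion_approx {P : (tateModel c).toAffine.Point} (hP : IsE1 A P) (hP0 : P ≠ 0)
    (hpP : p • P = 0) :
    A.valuation ((rVal P - 1) ^ (p - 1) - -(p : K)) < A.valuation (-(p : K)) := by
  set w := rVal P - 1 with hw
  have hw1 : A.valuation w < 1 := valuation_rVal_sub_one_lt hc hP
  have hwA : w ∈ A := (A.valuation_le_one_iff w).mp hw1.le
  have hw0 : w ≠ 0 := sub_ne_zero.mpr (rVal_ne_one hc hP hP0)
  have hwpos : 0 < A.valuation w := zero_lt_iff.mpr (A.valuation.ne_zero_iff.mpr hw0)
  have hppos : 0 < A.valuation (p : K) := zero_lt_iff.mpr (A.valuation.ne_zero_iff.mpr hp0)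
  obtain ⟨-, -, herr⟩ := rVal_nsmul_approx hc hc0 hP p
  rw [hpP, rVal_zero, ← hw, show rVal P = 1 + w by rw [hw]; ring] at herr
  obtain ⟨s, hs, hexp⟩ := exists_one_add_pow_eq (A := A) hp hwA
  rw [hexp] at herr
  have e : w * (w ^ (p - 1) - -(p : K)) = -((1 : K) - (1 + w ^ p + (p : K) * w + p * w ^ 2 * s)) -
      p * w ^ 2 * s := by
    have : w * w ^ (p - 1) = w ^ p := mul_pow_sub_one hp.ne_zero w
    rw [← this]; ring
  have hlt : A.valuation (w * (w ^ (p - 1) - -(p : K))) < A.valuation w * A.valuation (p : K) := by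
    rw [e]
    refine (A.valuation.map_sub _ _).trans_lt (max_lt ?_ ?_)
    · rw [A.valuation.map_neg]
      refine herr.trans_lt ?_
      calc A.valuation c * A.valuation w ^ 3 ≤ A.valuation (p : K) * A.valuation w ^ 3 := by gcongr
        _ < A.valuation (p : K) * A.valuation w :=
          mul_lt_mul_of_pos_left (pow_lt_self_of_lt_one₀ hwpos hw1 (by norm_num)) hppos
        _ = _ := mul_comm _ _
    · rw [map_mul, map_mul, map_pow]
      calc A.valuation (p : K) * A.valuation w ^ 2 * A.valuation s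
          ≤ A.valuation (p : K) * A.valuation w ^ 2 * 1 := by
            gcongr; exact (A.valuation_le_one_iff s).mpr hs
        _ < A.valuation (p : K) * A.valuation w := by
          rw [mul_one]
          exact mul_lt_mul_of_pos_left (pow_lt_self_of_lt_one₀ hwpos hw1 (by norm_num)) hppos
        _ = _ := mul_comm _ _
  rw [map_mul] at hlt
  rw [A.valuation.map_neg]
  exact lt_of_mul_lt_mul_left' hlt

include hc hc0 hp hp0 hcp in
/-- **Height one**: at most `p` points of `p`-torsion in the kernel of reduction. -/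
theorem natCard_isE1_torsion_le :
    Nat.card {P : (tateModel c).toAffine.Point // p • P = 0 ∧ IsE1 A P} ≤ p := by
  classical
  by_cases hall : ∀ P : (tateModel c).toAffine.Point, p • P = 0 → IsE1 A P → P = 0
  · have : Subsingleton {P : (tateModel c).toAffine.Point // p • P = 0 ∧ IsE1 A P} :=
      ⟨fun a b => Subtype.ext ((hall _ a.2.1 a.2.2).trans (hall _ b.2.1 b.2.2).symm)⟩
    exact (Finite.card_le_one_iff_subsingleton.mpr this).trans hp.one_lt.le
  simp only [not_forall] at hall
  obtain ⟨P₀, hpP₀, hP₀, hP₀0⟩ := hall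
  have hp1 : p - 1 ≠ 0 := by have := hp.two_le; omega
  -- all nonzero points have the same `v (r - 1)`
  have hval : ∀ {P : (tateModel c).toAffine.Point}, IsE1 A P → P ≠ 0 → p • P = 0 →
      A.valuation (rVal P - 1) ^ (p - 1) = A.valuation (p : K) := by
    intro P hP hP0 hpP
    have := valuation_eq_of_approx (torsion_approx hc hc0 hp hp0 hcp hP hP0 hpP)
    rwa [map_pow, A.valuation.map_neg] at this
  have heqv : ∀ {P : (tateModel c).toAffine.Point}, IsE1 A P → P ≠ 0 → p • P = 0 →
      A.valuation (rVal P - 1) = A.valuation (rVal P₀ - 1) := fun hP hP0 hpP =>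
    (pow_left_inj₀ zero_le zero_le hp1).mp
      ((hval hP hP0 hpP).trans (hval hP₀ hP₀0 hpP₀).symm)
  set w₀ := rVal P₀ - 1
  have hw₀ : w₀ ≠ 0 := sub_ne_zero.mpr (rVal_ne_one hc hP₀ hP₀0)
  have hw₀v : A.valuation w₀ < 1 := valuation_rVal_sub_one_lt hc hP₀
  -- residue of `(r - 1) / w₀`
  have hmem : ∀ P : {P : (tateModel c).toAffine.Point // p • P = 0 ∧ IsE1 A P},
      (rVal P.1 - 1) / w₀ ∈ A := by
    intro P
    rcases eq_or_ne P.1 0 with h0 | h0
    · rw [h0, rVal_zero, sub_self, zero_div]; exact zero_mem A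
    · rw [← A.valuation_le_one_iff, map_div₀, heqv P.2.2 h0 P.2.1,
        div_self (A.valuation.ne_zero_iff.mpr hw₀)]
  set S := insert (0 : ResidueField A)
    (Polynomial.nthRoots (p - 1) (1 : ResidueField A)).toFinset
  let f : {P : (tateModel c).toAffine.Point // p • P = 0 ∧ IsE1 A P} → S := fun P =>
    ⟨residue A ⟨_, hmem P⟩, by
      rcases eq_or_ne P.1 0 with h0 | h0
      · refine Finset.mem_insert.mpr (Or.inl ?_)
        rw [residue_eq_zero_iff]
        refine (ValuationSubring.valuation_lt_one_iff A _).mpr ?_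
        simp [h0, rVal_zero]
      refine Finset.mem_insert_of_mem ?_
      rw [Multiset.mem_toFinset, Polynomial.mem_nthRoots (Nat.pos_of_ne_zero hp1), ← map_pow,
        ← map_one (residue A), ← sub_eq_zero, ← map_sub, residue_eq_zero_iff]
      refine (ValuationSubring.valuation_lt_one_iff A _).mpr ?_
      push_cast
      have h1 := torsion_approx hc hc0 hp hp0 hcp P.2.2 h0 P.2.1
      have h2 := torsion_approx hc hc0 hp hp0 hcp hP₀ hP₀0 hpP₀
      rw [div_pow, div_sub_one (pow_ne_zero _ hw₀), map_div₀,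
        div_lt_one₀ (zero_lt_iff.mpr (A.valuation.ne_zero_iff.mpr (pow_ne_zero _ hw₀))),
        valuation_eq_of_approx h2,
        show (rVal P.1 - 1) ^ (p - 1) - w₀ ^ (p - 1) =
          ((rVal P.1 - 1) ^ (p - 1) - -(p : K)) - (w₀ ^ (p - 1) - -(p : K)) by ring]
      exact (A.valuation.map_sub _ _).trans_lt (max_lt h1 h2)⟩
  have hf : Function.Injective f := by
    intro P Q h
    have h' := congrArg Subtype.val h
    simp only [f] at h'
    rw [← sub_eq_zero, ← map_sub, residue_eq_zero_iff] at h'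
    have h'' := (ValuationSubring.valuation_lt_one_iff A _).mp h'
    push_cast at h''
    rw [← sub_div, map_div₀,
      div_lt_one₀ (zero_lt_iff.mpr (A.valuation.ne_zero_iff.mpr hw₀))] at h''
    by_contra hne
    have hR0 : P.1 - Q.1 ≠ 0 := sub_ne_zero.mpr fun e => hne (Subtype.ext e)
    have hR : IsE1 A (P.1 - Q.1) := P.2.2.sub hc hc0 Q.2.2
    have hpR : p • (P.1 - Q.1) = 0 := by rw [nsmul_sub, P.2.1, Q.2.1, sub_zero]
    have hRv := heqv hR hR0 hpR
    have hM : ∀ {T : (tateModel c).toAffine.Point}, IsE1 A T → p • T = 0 →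
        A.valuation (rVal T - 1) ≤ A.valuation w₀ := by
      intro T hT hpT
      rcases eq_or_ne T 0 with rfl | hT0
      · rw [rVal_zero, sub_self, map_zero]; exact zero_le
      · exact (heqv hT hT0 hpT).le
    have hadd := rVal_add_approx hc hc0 hR Q.2.2 (hM hR hpR) (hM Q.2.2 Q.2.1) hw₀v.le
    rw [sub_add_cancel] at hadd
    have hlt : A.valuation ((rVal (P.1 - Q.1) - 1) * rVal Q.1) < A.valuation w₀ := by
      rw [show (rVal (P.1 - Q.1) - 1) * rVal Q.1 =
        -(rVal P.1 - rVal (P.1 - Q.1) * rVal Q.1) +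
          ((rVal P.1 - 1) - (rVal Q.1 - 1)) by ring]
      refine A.valuation.map_add_lt ?_ h''
      rw [A.valuation.map_neg]
      calc _ ≤ A.valuation c * A.valuation w₀ ^ 3 := hadd
        _ ≤ A.valuation c * A.valuation w₀ := by
          gcongr; exact pow_le_of_le_one zero_le hw₀v.le (by norm_num)
        _ < A.valuation w₀ :=
          mul_lt_of_lt_one_left (zero_lt_iff.mpr (A.valuation.ne_zero_iff.mpr hw₀)) hc
    rw [map_mul, valuation_rVal hc Q.2.2, mul_one, hRv] at hlt
    exact lt_irrefl _ hlt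
  refine (Nat.card_le_card_of_injective f hf).trans ?_
  rw [Nat.card_eq_fintype_card, Fintype.card_coe]
  refine (Finset.card_insert_le _ _).trans ?_
  have := (Multiset.toFinset_card_le _).trans (Polynomial.card_nthRoots (p - 1) (1 : ResidueField A))
  omega

include hc0 hc hp hpA in
/-- In residue characteristic `p`, `p`-power torsion on the identity component is in the kernel
of reduction. -/
theorem isE1_of_isE0_torsion {n : ℕ} {P : (tateModel c).toAffine.Point}
    (hnP : p ^ n • P = 0) (hP : IsE0 A P) : IsE1 A P := by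
  rw [isE1_iff hc hc0, thetaFun_eq_cl]
  refine cl_of_approx_one hc0 ?_
  set a := thetaPtVal A P with ha
  have ha1 : A.valuation a = 1 := valuation_thetaPtVal_of_isE0 hc hP
  have haA : a ∈ A := (A.valuation_le_one_iff a).mp ha1.le
  obtain ⟨u, k, hu, hau⟩ := exists_pow_eq_of_torsion hc0 hc hnP
  have hk : k = 0 := by
    have hv := congrArg A.valuation hau
    rw [map_pow, ← ha, ha1, one_pow, map_mul, valuation_of_approx_one hu, one_mul, map_zpow₀,
      A.valuation.map_neg] at hv
    exact (zpow_eq_one_iff_right₀ zero_le hc.ne).mp hv.symm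
  rw [hk, zpow_zero, mul_one, ← ha] at hau
  rw [← hau] at hu
  have : Fact p.Prime := ⟨hp⟩
  have : CharP (ResidueField A) p := by
    refine (CharP.charP_iff_prime_eq_zero hp).mpr ?_
    rw [← map_natCast (residue A), residue_eq_zero_iff]
    exact (ValuationSubring.valuation_lt_one_iff A _).mpr (by simpa using hpA)
  have hres : residue A ⟨a, haA⟩ = 1 := by
    apply iterateFrobenius_inj (ResidueField A) p n
    rw [iterateFrobenius_def, iterateFrobenius_def, one_pow, ← map_pow, ← map_one (residue A),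
      ← sub_eq_zero, ← map_sub, residue_eq_zero_iff]
    exact (ValuationSubring.valuation_lt_one_iff A _).mpr (by push_cast; exact hu)
  rw [← map_one (residue A), ← sub_eq_zero, ← map_sub, residue_eq_zero_iff] at hres
  have := (ValuationSubring.valuation_lt_one_iff A _).mp hres
  push_cast at this
  exact this

include hc0 hc hp hpA hp0 hcp in
/-- At most `p` points of `p`-torsion on the identity component in residue characteristic `p`. -/
theorem natCard_isE0_torsion_le_of_residueChar :
    Nat.card {P : (tateModel c).toAffine.Point // p • P = 0 ∧ IsE0 A P} ≤ p :=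
  le_of_eq_of_le (Nat.card_congr (Equiv.subtypeEquivRight fun _ => and_congr_right fun h =>
    ⟨fun h' => isE1_of_isE0_torsion hc hc0 hp hpA (n := 1) (by rwa [pow_one]) h', IsE1.isE0⟩))
    (natCard_isE1_torsion_le hc hc0 hp hp0 hcp)

end Fermat.Agent.EC.TateTheta
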