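import Fermat.Agent.EC.TateInertia

/-!
# `p`-power torsion of `y² + xy = x³ + c` as a module over the decomposition group

Given that `E[p]` has `p²` points, at most `p` of them on the identity component, and that `E(K)`
is `p`-divisible: compatible points `T n`, `P n` form bases of all `E[pⁿ]`, with `T n` generating
the part on the identity component.  An automorphism preserving the valuation and fixing `c`
preserves this line, is trivial on the quotient, and, prime to the residue characteristic, acts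
on the line through its action on roots of unity.
-/

set_option autoImplicit false

noncomputable section

namespace Fermat.Agent.EC.TateTheta

open WeierstrassCurve IsLocalRing

variable {K : Type*} [Field K] {A : ValuationSubring K} {c : K} (hc0 : c ≠ 0)
  (hc : A.valuation c < 1)

lemma valuation_of_cl_eq {a b : K} (ha : a ≠ 0) (hb : b ≠ 0)
    (h : cl A c hc0 a = cl A c hc0 b) :
    ∃ j : ℤ, A.valuation a = A.valuation b * A.valuation c ^ j := by
  rw [← div_eq_one, ← cl_div hc0 ha hb] at h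
  obtain ⟨u, j, hu, huj⟩ := exists_eq_mul_zpow_of_cl_eq_one hc0 (div_ne_zero ha hb) h
  refine ⟨j, ?_⟩
  rw [(div_eq_iff hb).mp huj, map_mul, map_mul, valuation_of_approx_one hu, one_mul, map_zpow₀,
    A.valuation.map_neg, mul_comm]

/-- A sequence of successive lifts. -/
lemma exists_lift_seq {G : Type*} [AddCommGroup G] (S : G → Prop) (hS0 : S 0) {p : ℕ} {x₁ : G}
    (hx₁ : S x₁) (hpx₁ : p • x₁ = 0)
    (hlift : ∀ (n : ℕ) (x : G), p ^ n • x = 0 → S x → ∃ y, p • y = x ∧ S y) :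
    ∃ T : ℕ → G, T 0 = 0 ∧ T 1 = x₁ ∧ ∀ n, p • T (n + 1) = T n ∧ S (T n) ∧ p ^ n • T n = 0 := by
  classical
  let next : G → G := fun x => if h : ∃ y, p • y = x ∧ S y then h.choose else 0
  have key : ∀ n, S (next^[n] x₁) ∧ p ^ (n + 1) • next^[n] x₁ = 0 ∧
      p • next^[n + 1] x₁ = next^[n] x₁ := by
    intro n
    induction n with
    | zero =>
      have h := hlift 1 x₁ (by rwa [pow_one]) hx₁
      refine ⟨hx₁, by rwa [pow_one], ?_⟩
      show p • next x₁ = x₁
      simp only [next, dif_pos h]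
      exact h.choose_spec.1
    | succ n ih =>
      obtain ⟨hS, hpow, hp⟩ := ih
      have h0 := hlift (n + 1) _ hpow hS
      have hS' : S (next^[n + 1] x₁) := by
        rw [Function.iterate_succ_apply']
        simp only [next, dif_pos h0]
        exact h0.choose_spec.2
      have hpow' : p ^ (n + 1 + 1) • next^[n + 1] x₁ = 0 := by
        rw [pow_succ, mul_smul, hp, hpow]
      have h1 := hlift (n + 1 + 1) _ hpow' hS'
      refine ⟨hS', hpow', ?_⟩
      rw [Function.iterate_succ_apply' next (n + 1)]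
      simp only [next, dif_pos h1]
      exact h1.choose_spec.1
  refine ⟨fun n => match n with | 0 => 0 | n + 1 => next^[n] x₁, rfl, rfl, fun n => ?_⟩
  cases n with
  | zero => exact ⟨hpx₁, hS0, smul_zero _⟩
  | succ n => exact ⟨(key n).2.2, (key n).1, (key n).2.1⟩

variable [DecidableEq K] {p : ℕ}

include hc0 hc in
lemma isE0_nsmul {P : (tateModel c).toAffine.Point} (hP : IsE0 A P) (m : ℕ) :
    IsE0 A (m • P) := by
  obtain ⟨a, ha, hθ⟩ := (isE0_iff_exists_unit hc0 hc).mp hP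
  have ha0 : a ≠ 0 := by rintro rfl; simp at ha
  refine (isE0_iff_exists_unit hc0 hc).mpr ⟨a ^ m, by rw [map_pow, ha, one_pow], ?_⟩
  rw [thetaFun_nsmul hc0 hc, hθ, cl_pow hc0 ha0]

include hc0 hc in
lemma isE0_zsmul {P : (tateModel c).toAffine.Point} (hP : IsE0 A P) (m : ℤ) :
    IsE0 A (m • P) := by
  obtain ⟨n, rfl | rfl⟩ := m.eq_nat_or_neg
  · rw [natCast_zsmul]; exact isE0_nsmul hc0 hc hP n
  · rw [neg_zsmul, natCast_zsmul, ← zero_sub]
    exact IsE0.sub hc trivial (isE0_nsmul hc0 hc hP n) hc0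

include hc0 hc in
lemma isE0_add {P Q : (tateModel c).toAffine.Point} (hP : IsE0 A P) (hQ : IsE0 A Q) :
    IsE0 A (P + Q) := by
  have h : IsE0 A (-Q) := by rw [← zero_sub]; exact IsE0.sub hc trivial hQ hc0
  have := IsE0.sub hc hP h hc0
  rwa [sub_neg_eq_add] at this

include hc0 hc in
/-- Shifting by a non-identity-component `p`-torsion point. -/
lemma exists_isE0_sub (hp : p.Prime) {P₁ R : (tateModel c).toAffine.Point} (hP₁ : p • P₁ = 0)
    (hP₁bad : ¬ IsE0 A P₁) (hR : IsE0 A (p • R)) :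
    ∃ m : ℕ, m < p ∧ IsE0 A (R - m • P₁) := by
  have hv : ∀ {S : (tateModel c).toAffine.Point}, IsE0 A (p • S) →
      ∃ k : ℤ, A.valuation (thetaPtVal A S) ^ p = A.valuation c ^ k := by
    intro S hS
    have hS0 := thetaPtVal_ne_zero hc0 hc S
    obtain ⟨e, he, hθ⟩ := (isE0_iff_exists_unit hc0 hc).mp hS
    have he0 : e ≠ 0 := by rintro rfl; simp at he
    rw [thetaFun_nsmul hc0 hc, thetaFun_eq_cl, ← cl_pow hc0 hS0] at hθ
    obtain ⟨j, hj⟩ := valuation_of_cl_eq hc0 (pow_ne_zero p hS0) he0 hθ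
    exact ⟨j, by rw [← map_pow, hj, he, one_mul]⟩
  obtain ⟨k₁, hk₁⟩ := hv (show IsE0 A (p • P₁) by rw [hP₁]; trivial)
  obtain ⟨k, hk⟩ := hv hR
  have hcpos : 0 < A.valuation c := zero_lt_iff.mpr (A.valuation.ne_zero_iff.mpr hc0)
  have hpk₁ : ¬ (p : ℤ) ∣ k₁ := by
    rintro ⟨t, rfl⟩
    refine hP₁bad (isE0_of_valuation_eq_zpow hc0 hc (k := t)
      ((pow_left_inj₀ zero_le zero_le hp.ne_zero).mp ?_))
    rw [hk₁, ← zpow_natCast (A.valuation c ^ t), ← zpow_mul, mul_comm]
  obtain ⟨s, t, hst⟩ := (Nat.prime_iff_prime_int.mp hp).coprime_iff_not_dvd.mpr hpk₁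
  have hpz : (p : ℤ) ≠ 0 := by exact_mod_cast hp.ne_zero
  set m : ℕ := ((k * t) % (p : ℤ)).toNat with hmdef
  have hm : (m : ℤ) = (k * t) % (p : ℤ) := Int.toNat_of_nonneg (Int.emod_nonneg _ hpz)
  refine ⟨m, ?_, ?_⟩
  · have := Int.emod_lt_of_pos (k * t) (show (0 : ℤ) < p by exact_mod_cast hp.pos)
    omega
  obtain ⟨w, hw⟩ : (p : ℤ) ∣ k - k₁ * m := by
    refine ⟨k * s + k₁ * ((k * t) / p), ?_⟩
    rw [hm, Int.emod_def]
    linear_combination (-k) * hst
  have hR0 := thetaPtVal_ne_zero hc0 hc R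
  have hP0 := thetaPtVal_ne_zero hc0 hc P₁
  have hθ : thetaFun A hc0 (R - m • P₁) =
      cl A c hc0 (thetaPtVal A R / thetaPtVal A P₁ ^ m) := by
    rw [thetaFun_sub hc0 hc, thetaFun_nsmul hc0 hc, thetaFun_eq_cl, thetaFun_eq_cl,
      ← cl_pow hc0 hP0, cl_div hc0 hR0 (pow_ne_zero m hP0)]
  rw [thetaFun_eq_cl] at hθ
  obtain ⟨j, hj⟩ := valuation_of_cl_eq hc0 (thetaPtVal_ne_zero hc0 hc _)
    (div_ne_zero hR0 (pow_ne_zero m hP0)) hθ
  refine isE0_of_valuation_eq_zpow hc0 hc (k := w + j) ?_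
  rw [hj, zpow_add₀ hcpos.ne']
  congr 1
  apply (pow_left_inj₀ zero_le zero_le hp.ne_zero).mp
  rw [map_div₀, map_pow, div_pow, hk, ← pow_mul, mul_comm m p, pow_mul, hk₁,
    ← zpow_natCast (A.valuation c ^ k₁), ← zpow_mul, ← zpow_sub₀ hcpos.ne',
    ← zpow_natCast (A.valuation c ^ w), ← zpow_mul, mul_comm w, ← hw]

section basis

variable (hp : p.Prime)
  (hcard : Nat.card {R : (tateModel c).toAffine.Point // p • R = 0} = p ^ 2)
  (hle : Nat.card {R : (tateModel c).toAffine.Point // p • R = 0 ∧ IsE0 A R} ≤ p)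

include hc0 hc hp hcard hle in
/-- `E[p]`: a generator of the identity-component part and a point outside it. -/
theorem exists_basis_level_one :
    ∃ T₁ P₁ : (tateModel c).toAffine.Point, p • T₁ = 0 ∧ IsE0 A T₁ ∧ T₁ ≠ 0 ∧ p • P₁ = 0 ∧
      ¬ IsE0 A P₁ ∧ ∀ R, p • R = 0 → IsE0 A R → ∃ i : ℕ, R = i • T₁ := by
  have hfin : Finite {R : (tateModel c).toAffine.Point // p • R = 0} :=
    Nat.finite_of_card_ne_zero (hcard ▸ pow_ne_zero 2 hp.ne_zero)
  have hfin0 : Finite {R : (tateModel c).toAffine.Point // p • R = 0 ∧ IsE0 A R} :=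
    Finite.of_injective (fun R => (⟨R.1, R.2.1⟩ : {R : (tateModel c).toAffine.Point // p • R = 0}))
      fun a b h => Subtype.ext (congrArg Subtype.val h :)
  obtain ⟨P₁, hP₁, hP₁bad⟩ : ∃ R, p • R = 0 ∧ ¬ IsE0 A R := by
    by_contra! hall
    rw [Nat.card_congr (Equiv.subtypeEquivRight fun R : (tateModel c).toAffine.Point =>
      (and_iff_left_of_imp (hall R))), hcard] at hle
    exact hle.not_gt (lt_self_pow₀ hp.one_lt (by norm_num))
  let g : {R : (tateModel c).toAffine.Point // p • R = 0 ∧ IsE0 A R} × Fin p →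
      {R : (tateModel c).toAffine.Point // p • R = 0} := fun x =>
    ⟨x.1.1 + (x.2 : ℕ) • P₁, by rw [nsmul_add, x.1.2.1, smul_comm, hP₁, smul_zero, add_zero]⟩
  have hg : Function.Surjective g := by
    intro R
    obtain ⟨i, hi, hE0⟩ := exists_isE0_sub hc0 hc hp hP₁ hP₁bad
      (show IsE0 A (p • R.1) by rw [R.2]; trivial)
    exact ⟨(⟨R.1 - i • P₁, by rw [nsmul_sub, R.2, smul_comm, hP₁, smul_zero, sub_zero], hE0⟩,
      ⟨i, hi⟩), Subtype.ext (sub_add_cancel _ _)⟩
  have hge := Nat.card_le_card_of_surjective g hg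
  rw [hcard, Nat.card_prod, Nat.card_fin, sq] at hge
  have hge' := Nat.le_of_mul_le_mul_right hge hp.pos
  have : Nontrivial {R : (tateModel c).toAffine.Point // p • R = 0 ∧ IsE0 A R} :=
    Finite.one_lt_card_iff_nontrivial.mp (hp.one_lt.trans_le hge')
  obtain ⟨⟨T₁, hT₁, hT₁E⟩, hne⟩ :=
    exists_ne (⟨0, smul_zero _, trivial⟩ :
      {R : (tateModel c).toAffine.Point // p • R = 0 ∧ IsE0 A R})
  have hT₁0 : T₁ ≠ 0 := fun h => hne (Subtype.ext h)
  refine ⟨T₁, P₁, hT₁, hT₁E, hT₁0, hP₁, hP₁bad, fun R hR hRE => ?_⟩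
  have hord : addOrderOf T₁ = p := addOrderOf_eq_prime (hp := ⟨hp⟩) hT₁ hT₁0
  let f : Fin p → {R : (tateModel c).toAffine.Point // p • R = 0 ∧ IsE0 A R} := fun i =>
    ⟨(i : ℕ) • T₁, by rw [smul_comm, hT₁, smul_zero], isE0_nsmul hc0 hc hT₁E _⟩
  have hf : Function.Injective f := fun i j h => by
    have h' := congrArg Subtype.val h
    exact Fin.ext (nsmul_injOn_Iio_addOrderOf (Set.mem_Iio.mpr (hord ▸ i.2))
      (Set.mem_Iio.mpr (hord ▸ j.2)) h')
  have hcard0 : Nat.card {R : (tateModel c).toAffine.Point // p • R = 0 ∧ IsE0 A R} = p :=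
    le_antisymm hle hge'
  have := (Fintype.ofFinite {R : (tateModel c).toAffine.Point // p • R = 0 ∧ IsE0 A R})
  obtain ⟨i, hi⟩ := ((Fintype.bijective_iff_injective_and_card f).mpr ⟨hf, by
    rw [Fintype.card_fin, ← Nat.card_eq_fintype_card, hcard0]⟩).2 ⟨R, hR, hRE⟩
  exact ⟨i, (congrArg Subtype.val hi).symm⟩

include hc0 hc hp hcard hle in
/-- **Compatible bases of `E[pⁿ]`** adapted to the identity component. -/
theorem exists_compatible_basis
    (hdiv : Function.Surjective fun R : (tateModel c).toAffine.Point => p • R) :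
    ∃ T P : ℕ → (tateModel c).toAffine.Point, T 0 = 0 ∧ P 0 = 0 ∧
      (∀ n, p • T (n + 1) = T n) ∧ (∀ n, p • P (n + 1) = P n) ∧
      (∀ n, p ^ n • T n = 0) ∧ (∀ n, p ^ n • P n = 0) ∧ (∀ n, IsE0 A (T n)) ∧
      (∀ n (R : (tateModel c).toAffine.Point), p ^ n • R = 0 → IsE0 A R →
        ∃ i : ℕ, R = i • T n) ∧
      (∀ n (R : (tateModel c).toAffine.Point), p ^ n • R = 0 →
        ∃ i j : ℕ, R = i • T n + j • P n) ∧
      (∀ n (a b : ℤ), a • T n + b • P n = 0 → (p : ℤ) ^ n ∣ a ∧ (p : ℤ) ^ n ∣ b) := by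
  obtain ⟨T₁, P₁, hT₁, hT₁E, hT₁0, hP₁, hP₁bad, hgen⟩ :=
    exists_basis_level_one hc0 hc hp hcard hle
  have hlift : ∀ (n : ℕ) (x : (tateModel c).toAffine.Point), p ^ n • x = 0 → IsE0 A x →
      ∃ y, p • y = x ∧ IsE0 A y := by
    intro n x _ hx
    obtain ⟨R, hR⟩ := hdiv x
    simp only at hR
    obtain ⟨m, -, hm⟩ := exists_isE0_sub hc0 hc hp hP₁ hP₁bad (R := R) (hR ▸ hx)
    exact ⟨_, by rw [nsmul_sub, smul_comm p m P₁, hP₁, smul_zero, sub_zero, hR], hm⟩
  obtain ⟨T, hT0, hT1, hT⟩ := exists_lift_seq (IsE0 A) (by trivial) hT₁E hT₁ hlift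
  obtain ⟨P, hP0, hP1, hP⟩ := exists_lift_seq (fun _ : (tateModel c).toAffine.Point => True)
    trivial (x₁ := P₁) trivial hP₁ fun n x _ _ => (hdiv x).imp fun y hy => ⟨hy, trivial⟩
  have hTtop : ∀ n, p ^ n • T (n + 1) = T₁ := by
    intro n
    induction n with
    | zero => rw [pow_zero, one_smul, hT1]
    | succ n ih => rw [pow_succ, mul_smul, (hT (n + 1)).1, ih]
  have hPtop : ∀ n, p ^ n • P (n + 1) = P₁ := by
    intro n
    induction n with
    | zero => rw [pow_zero, one_smul, hP1]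
    | succ n ih => rw [pow_succ, mul_smul, (hP (n + 1)).1, ih]
  refine ⟨T, P, hT0, hP0, fun n => (hT n).1, fun n => (hP n).1, fun n => (hT n).2.2,
    fun n => (hP n).2.2, fun n => (hT n).2.1, ?_, ?_, ?_⟩
  · intro n
    induction n with
    | zero => intro R hR _; exact ⟨0, by rwa [pow_zero, one_smul, ← zero_smul ℕ (T 0)] at hR⟩
    | succ n ih =>
      intro R hR hRE
      obtain ⟨i, hi⟩ := ih (p • R) (by rw [← mul_smul, ← pow_succ, hR]) (isE0_nsmul hc0 hc hRE p)
      obtain ⟨j, hj⟩ := hgen (R - i • T (n + 1))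
        (by rw [nsmul_sub, smul_comm, (hT n).1, hi, sub_self])
        (IsE0.sub hc hRE (isE0_nsmul hc0 hc (hT (n + 1)).2.1 i) hc0)
      exact ⟨j * p ^ n + i, by rw [add_smul, mul_smul, hTtop, ← hj, sub_add_cancel]⟩
  · intro n
    induction n with
    | zero => intro R hR; exact ⟨0, 0, by simpa using hR⟩
    | succ n ih =>
      intro R hR
      obtain ⟨i, j, hij⟩ := ih (p • R) (by rw [← mul_smul, ← pow_succ, hR])
      set S := R - (i • T (n + 1) + j • P (n + 1)) with hS
      have hpS : p • S = 0 := by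
        rw [hS, nsmul_sub, nsmul_add, smul_comm p i, smul_comm p j, (hT n).1, (hP n).1, hij,
          sub_self]
      obtain ⟨m, -, hm⟩ := exists_isE0_sub hc0 hc hp hP₁ hP₁bad
        (show IsE0 A (p • S) by rw [hpS]; trivial)
      obtain ⟨l, hl⟩ := hgen (S - m • P₁)
        (by rw [nsmul_sub, hpS, smul_comm, hP₁, smul_zero, sub_zero]) hm
      refine ⟨l * p ^ n + i, m * p ^ n + j, ?_⟩
      rw [add_smul, mul_smul, hTtop, add_smul, mul_smul, hPtop, ← hl, hS]
      abel
  · intro n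
    induction n with
    | zero => intro a b _; simp
    | succ n ih =>
      intro a b hab
      have hb1 : ∀ a b : ℤ, a • T₁ + b • P₁ = 0 → (p : ℤ) ∣ a ∧ (p : ℤ) ∣ b := by
        intro a b h
        have hb : (p : ℤ) ∣ b := by
          by_contra hb
          obtain ⟨s, t, hst⟩ := (Nat.prime_iff_prime_int.mp hp).coprime_iff_not_dvd.mpr hb
          apply hP₁bad
          have e : P₁ = (-(t * a)) • T₁ := by
            have h2 := congrArg (t • ·) h
            simp only [smul_zero, smul_add, smul_smul] at h2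
            have h3 : (s * (p : ℤ) + t * b) • P₁ = P₁ := by rw [hst, one_smul]
            rw [add_smul, mul_smul s (p : ℤ) P₁, natCast_zsmul, hP₁, smul_zero, zero_add] at h3
            rw [h3, add_comm, add_eq_zero_iff_eq_neg] at h2
            rw [neg_smul]; exact h2
          rw [e]
          exact isE0_zsmul hc0 hc hT₁E _
        refine ⟨?_, hb⟩
        obtain ⟨b', rfl⟩ := hb
        rw [mul_comm, mul_smul, natCast_zsmul, hP₁, smul_zero, add_zero] at h
        rw [← addOrderOf_eq_prime (hp := ⟨hp⟩) hT₁ hT₁0]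
        exact addOrderOf_dvd_iff_zsmul_eq_zero.mpr h
      have h' : a • T n + b • P n = 0 := by
        rw [← (hT n).1, ← (hP n).1, smul_comm a p, smul_comm b p, ← nsmul_add, hab, smul_zero]
      obtain ⟨⟨a', ha⟩, ⟨b', hb⟩⟩ := ih a b h'
      rw [ha, hb, mul_comm _ a', mul_comm _ b', mul_smul, mul_smul, ← Nat.cast_pow, natCast_zsmul,
        natCast_zsmul, hTtop, hPtop] at hab
      obtain ⟨⟨a'', rfl⟩, ⟨b'', rfl⟩⟩ := hb1 a' b' hab
      exact ⟨⟨a'', by rw [ha, pow_succ]; ring⟩, ⟨b'', by rw [hb, pow_succ]; ring⟩⟩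

end basis

/-! ### Automorphisms preserving the valuation -/

section galois

variable (σ : K ≃+* K) (hσv : ∀ z, A.valuation (σ z) = A.valuation z) (hσc : σ c = c)

include hσv hσc in
omit [DecidableEq K] in
lemma thetaPtVal_mapPt_of_valuation (P : (tateModel c).toAffine.Point) :
    thetaPtVal A (mapPt σ hσc P) = σ (thetaPtVal A P) := by
  rcases P with _ | ⟨x, y, h⟩
  · exact (map_one σ).symm
  show thetaVal A c (σ x) (σ y) = σ (thetaVal A c x y)
  simp only [thetaVal, ← map_add σ, hσv]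
  split_ifs <;> simp [hσc]

include hσv in
omit [DecidableEq K] in
lemma isE0_mapPt_iff (P : (tateModel c).toAffine.Point) :
    IsE0 A (mapPt σ hσc P) ↔ IsE0 A P := by
  rcases P with _ | ⟨x, y, h⟩
  · exact Iff.rfl
  show 1 ≤ A.valuation (σ x) ↔ _
  rw [hσv]
  rfl

include hc0 hc hσv in
/-- A valuation-preserving automorphism is trivial on `E/E₀`. -/
theorem isE0_mapPt_sub_of_valuation (P : (tateModel c).toAffine.Point) :
    IsE0 A (mapPt σ hσc P - P) := by
  have ha0 := thetaPtVal_ne_zero hc0 hc P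
  have hσa0 : σ (thetaPtVal A P) ≠ 0 := (map_ne_zero σ).mpr ha0
  refine (isE0_iff_exists_unit hc0 hc).mpr ⟨σ (thetaPtVal A P) / thetaPtVal A P, ?_, ?_⟩
  · rw [map_div₀, hσv, div_self (A.valuation.ne_zero_iff.mpr ha0)]
  · rw [thetaFun_sub hc0 hc, thetaFun_eq_cl, thetaFun_eq_cl,
      thetaPtVal_mapPt_of_valuation σ hσv hσc, cl_div hc0 hσa0 ha0]

omit [DecidableEq K] in
/-- An element whose `N`-th power is near `1` is near an `N`-th root of unity. -/
lemma exists_root_approx [IsAlgClosed K] {N : ℕ} (hN : N ≠ 0) {a : K}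
    (h : A.valuation (a ^ N - 1) < 1) : ∃ μ : K, μ ^ N = 1 ∧ A.valuation (a - μ) < 1 := by
  set F : Polynomial K := Polynomial.X ^ N - Polynomial.C 1 with hF
  have heval := (IsAlgClosed.splits F).eval_eq_prod_roots_of_monic
    (Polynomial.monic_X_pow_sub_C _ hN) a
  by_contra! hall
  have hval : A.valuation (F.eval a) < 1 := by
    rw [hF]
    simp only [Polynomial.eval_sub, Polynomial.eval_pow, Polynomial.eval_X, Polynomial.eval_C]
    exact h
  rw [heval, map_multiset_prod, Multiset.map_map] at hval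
  refine hval.not_ge (Multiset.one_le_prod_of_one_le fun z hz => ?_)
  obtain ⟨r, hr, rfl⟩ := Multiset.mem_map.mp hz
  have hr' : r ^ N = 1 := by
    have := (Polynomial.mem_roots'.mp hr).2
    simpa [hF, sub_eq_zero] using this
  exact hall r hr'

include hc0 hc hσv in
/-- On the identity component, prime to the residue characteristic, `σ` acts as on roots of
unity. -/
theorem mapPt_eq_nsmul_of_isE0 [IsAlgClosed K] {N e : ℕ} (hN : (N : ResidueField A) ≠ 0)
    (he : ∀ μ : K, μ ^ N = 1 → σ μ = μ ^ e) {P : (tateModel c).toAffine.Point}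
    (hNP : N • P = 0) (hP : IsE0 A P) : mapPt σ hσc P = e • P := by
  have hN0 : N ≠ 0 := by rintro rfl; simp at hN
  refine eq_of_thetaFun_eq hc0 hc hN ?_ ?_ ?_
  · show N • mapHom σ hσc P = 0
    rw [← map_nsmul, hNP, map_zero]
  · rw [smul_comm, hNP, smul_zero]
  obtain ⟨u, k, hu, hau⟩ := exists_pow_eq_of_torsion hc0 hc hNP
  have ha1 := valuation_thetaPtVal_of_isE0 hc hP
  set a := thetaPtVal A P with ha
  have hk : k = 0 := by
    have hv := congrArg A.valuation hau
    rw [map_pow, ha1, one_pow, map_mul, valuation_of_approx_one hu, one_mul, map_zpow₀,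
      A.valuation.map_neg] at hv
    exact (zpow_eq_one_iff_right₀ zero_le hc.ne).mp hv.symm
  obtain ⟨μ, hμ, hμa⟩ := exists_root_approx (A := A) hN0 (a := a)
    (by rw [hau, hk, zpow_zero, mul_one]; exact hu)
  have hμ1 : A.valuation μ = 1 :=
    (pow_eq_one_iff_of_nonneg zero_le hN0).mp (by rw [← map_pow, hμ, map_one])
  have hμ0 : μ ≠ 0 := by rintro rfl; simp at hμ1
  have ha0 : a ≠ 0 := by intro h0; rw [h0, map_zero] at ha1; exact zero_ne_one ha1
  rw [thetaFun_eq_cl, thetaPtVal_mapPt_of_valuation σ hσv hσc, thetaFun_nsmul hc0 hc,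
    thetaFun_eq_cl, ← ha, cl_eq_of_approx hc0 (a := a) (b := μ) (by rwa [hμ1]),
    cl_eq_of_approx hc0 (a := σ a) (b := σ μ)
      (by rw [← map_sub σ, hσv, hσv, hμ1]; exact hμa), he μ hμ, cl_pow hc0 hμ0]

end galois

end Fermat.Agent.EC.TateTheta
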