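import Fermat.Agent.EC.TateTheta
import Fermat.Agent.EC.Red.Kernel
import Mathlib.FieldTheory.IsAlgClosed.Basic

/-!
# Inertia acting on torsion of `y² + xy = x³ + c`

Let `σ` be an automorphism of `K` fixing `c` and inducing the identity on the residue field of `A`,
and let `n` be invertible in the residue field.  Using the theta map: `σ P - P` lies on the
identity component for an `n`-torsion point `P`, such points on the identity component are fixed,
and `σ P = P` if `v c = (v π)ⁿ` for some fixed `π`.  For a prime `p` with `#E[p] = p²` the points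
of `E[p]` on the identity component form a line, and some point has theta equal to a `p`-th root
of `-c`.
-/

set_option autoImplicit false

noncomputable section

namespace Fermat.Agent.EC.TateTheta

open WeierstrassCurve IsLocalRing

variable {K : Type*} [Field K] {A : ValuationSubring K} {c : K} (hc0 : c ≠ 0)

/-- A representative of theta. -/
def thetaVal (A : ValuationSubring K) (c x y : K) : K :=
  if 1 ≤ A.valuation x then y / (y + x)
  else if A.valuation y ≤ A.valuation (y + x) then y + x else c / y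

lemma thetaXY_eq_cl (x y : K) : thetaXY A hc0 x y = cl A c hc0 (thetaVal A c x y) := by
  rw [thetaXY, thetaVal]; split_ifs <;> rfl

/-- A representative of theta of a point. -/
def thetaPtVal (A : ValuationSubring K) : (tateModel c).toAffine.Point → K
  | 0 => 1
  | .some x y _ => thetaVal A c x y

/-- The identity component: `O` and the points with `v x ≥ 1`. -/
def IsE0 (A : ValuationSubring K) : (tateModel c).toAffine.Point → Prop
  | 0 => True
  | .some x _ _ => 1 ≤ A.valuation x

lemma thetaFun_eq_cl (P : (tateModel c).toAffine.Point) :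
    thetaFun A hc0 P = cl A c hc0 (thetaPtVal A P) := by
  rcases P with _ | ⟨x, y, h⟩
  · exact (cl_one hc0).symm
  · exact thetaXY_eq_cl hc0 x y

lemma cl_pow {a : K} (ha : a ≠ 0) (n : ℕ) : cl A c hc0 (a ^ n) = cl A c hc0 a ^ n := by
  induction n with
  | zero => rw [pow_zero, pow_zero, cl_one]
  | succ n ih => rw [pow_succ, pow_succ, cl_mul hc0 (pow_ne_zero n ha) ha, ih]

lemma cl_neg_c_zpow (k : ℤ) : cl A c hc0 ((-c) ^ k) = 1 := by
  rw [cl_of_ne hc0 (zpow_ne_zero k (neg_ne_zero.mpr hc0)), mkTarget_eq_one_iff]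
  apply Subgroup.mem_sup_right
  refine Subgroup.mem_zpowers_iff.mpr ⟨k, ?_⟩
  ext
  simp

lemma valuation_of_approx_one {u : K} (hu : A.valuation (u - 1) < 1) : A.valuation u = 1 :=
  (valuation_eq_of_approx (by rwa [map_one])).trans (map_one _)

lemma cl_of_approx_one {u : K} (hu : A.valuation (u - 1) < 1) : cl A c hc0 u = 1 := by
  rw [← cl_one (A := A) hc0]
  exact cl_eq_of_approx hc0 (by rwa [map_one])

/-- Elements of the trivial class. -/
lemma exists_eq_mul_zpow_of_cl_eq_one {a : K} (ha : a ≠ 0) (h : cl A c hc0 a = 1) :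
    ∃ (u : K) (k : ℤ), A.valuation (u - 1) < 1 ∧ a = u * (-c) ^ k := by
  rw [cl_of_ne hc0 ha, mkTarget_eq_one_iff, thetaKer, Subgroup.mem_sup] at h
  obtain ⟨u, hu, v, hv, huv⟩ := h
  rw [A.mem_principalUnitGroup_iff] at hu
  obtain ⟨k, rfl⟩ := Subgroup.mem_zpowers_iff.mp hv
  exact ⟨u, k, hu, by simpa using (congrArg Units.val huv).symm⟩

section points

variable (hc : A.valuation c < 1)

include hc0 hc in
lemma bad_thetaVal {x y : K} (he : y * (y + x) = x ^ 3 + c) (hx : A.valuation x < 1) :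
    A.valuation c < A.valuation (thetaVal A c x y) ∧ A.valuation (thetaVal A c x y) < 1 := by
  obtain ⟨hyv, hyxv⟩ := bad_facts hc he hx
  have hw := valuation_c_lt hc0 hc he hx
  rw [thetaVal, if_neg hx.not_ge]
  split_ifs with hle
  · rw [max_eq_right hle] at hw
    exact ⟨hw, hyxv⟩
  · rw [not_le] at hle
    rw [max_eq_left hle.le] at hw
    have hcpos : 0 < A.valuation c := zero_lt_iff.mpr (A.valuation.ne_zero_iff.mpr hc0)
    rw [map_div₀]
    exact ⟨(lt_div_iff₀ (hcpos.trans hw)).mpr (mul_lt_of_lt_one_right hcpos hyv),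
      (div_lt_one₀ (hcpos.trans hw)).mpr hw⟩

include hc0 hc in
lemma thetaPtVal_ne_zero (P : (tateModel c).toAffine.Point) : thetaPtVal A P ≠ 0 := by
  rcases P with _ | ⟨x, y, h⟩
  · exact one_ne_zero
  show thetaVal A c x y ≠ 0
  have he := (tateModel_equation_iff c x y).mp h.left
  rcases le_or_gt 1 (A.valuation x) with hx | hx
  · obtain ⟨-, -, -, hy0, hyx0⟩ := good_facts hc he hx
    rw [thetaVal, if_pos hx]
    exact div_ne_zero hy0 hyx0
  · exact A.valuation.ne_zero_iff.mp
      ((bad_thetaVal hc0 hc he hx).1.trans_le' zero_le).ne'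

include hc in
lemma valuation_thetaPtVal_of_isE0 {P : (tateModel c).toAffine.Point} (hP : IsE0 A P) :
    A.valuation (thetaPtVal A P) = 1 := by
  rcases P with _ | ⟨x, y, h⟩
  · exact map_one _
  · obtain ⟨heq, -, hy1, -, -⟩ :=
      good_facts hc ((tateModel_equation_iff c x y).mp h.left) hP
    show A.valuation (thetaVal A c x y) = 1
    rw [thetaVal, if_pos (show 1 ≤ A.valuation x from hP), map_div₀, ← heq,
      div_self (zero_lt_one.trans_le hy1).ne']

include hc0 hc in
/-- Criterion for the identity component through the valuation of theta. -/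
lemma isE0_of_valuation_eq_zpow {P : (tateModel c).toAffine.Point} {k : ℤ}
    (hk : A.valuation (thetaPtVal A P) = A.valuation c ^ k) : IsE0 A P := by
  rcases P with _ | ⟨x, y, h⟩
  · trivial
  show 1 ≤ A.valuation x
  by_contra hx
  rw [not_le] at hx
  obtain ⟨hl, hu⟩ := bad_thetaVal hc0 hc ((tateModel_equation_iff c x y).mp h.left) hx
  have hcpos : 0 < A.valuation c := zero_lt_iff.mpr (A.valuation.ne_zero_iff.mpr hc0)
  change A.valuation (thetaVal A c x y) = _ at hk
  rw [hk] at hl hu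
  rcases le_or_gt k 0 with hk' | hk'
  · exact hu.not_ge (one_le_zpow_of_nonpos₀ hcpos hc.le hk')
  · exact hl.not_ge ((zpow_le_zpow_right_of_le_one₀ hcpos hc.le hk').trans_eq (zpow_one _))

include hc in
/-- A point is on the identity component iff its theta is a unit class. -/
lemma isE0_iff_exists_unit {P : (tateModel c).toAffine.Point} :
    IsE0 A P ↔ ∃ a : K, A.valuation a = 1 ∧ thetaFun A hc0 P = cl A c hc0 a := by
  refine ⟨fun hP => ⟨_, valuation_thetaPtVal_of_isE0 hc hP, thetaFun_eq_cl hc0 P⟩, ?_⟩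
  rintro ⟨a, ha, h⟩
  have ha0 : a ≠ 0 := by rintro rfl; simp at ha
  have hP0 := thetaPtVal_ne_zero hc0 hc P
  rw [thetaFun_eq_cl, ← div_eq_one, ← cl_div hc0 hP0 ha0] at h
  obtain ⟨u, k, hu, huk⟩ := exists_eq_mul_zpow_of_cl_eq_one hc0 (div_ne_zero hP0 ha0) h
  refine isE0_of_valuation_eq_zpow hc0 hc (k := k) ?_
  rw [(div_eq_iff ha0).mp huk, map_mul, map_mul, valuation_of_approx_one hu, ha, one_mul, mul_one,
    map_zpow₀, A.valuation.map_neg]

/-- The integral model of `tateModel c` over `A`. -/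
def tateRedModel :
    RedModel A (tateModel c).toAffine
      ((⟨1, 0, 0, 0, (⟨c, (A.valuation_le_one_iff c).mp hc.le⟩ : A)⟩ :
        WeierstrassCurve A).map (residue A)).toAffine where
  W := ⟨1, 0, 0, 0, ⟨c, (A.valuation_le_one_iff c).mp hc.le⟩⟩
  map_subtype := by ext <;> simp [tateModel]
  map_residue := rfl

variable [DecidableEq K] {n : ℕ} {P Q : (tateModel c).toAffine.Point}

include hc in
lemma thetaFun_nsmul (m : ℕ) (P : (tateModel c).toAffine.Point) :
    thetaFun A hc0 (m • P) = thetaFun A hc0 P ^ m :=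
  congrArg Additive.toMul (map_nsmul (thetaHom A hc0 hc) m P)

include hc in
lemma thetaFun_sub (P Q : (tateModel c).toAffine.Point) :
    thetaFun A hc0 (P - Q) = thetaFun A hc0 P / thetaFun A hc0 Q :=
  congrArg Additive.toMul (map_sub (thetaHom A hc0 hc) P Q)

include hc in
/-- The identity component is closed under subtraction. -/
lemma IsE0.sub (hP : IsE0 A P) (hQ : IsE0 A Q) (hc0 : c ≠ 0) : IsE0 A (P - Q) := by
  obtain ⟨a, ha, hθP⟩ := (isE0_iff_exists_unit hc0 hc).mp hP
  obtain ⟨b, hb, hθQ⟩ := (isE0_iff_exists_unit hc0 hc).mp hQ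
  have ha0 : a ≠ 0 := by rintro rfl; simp at ha
  have hb0 : b ≠ 0 := by rintro rfl; simp at hb
  refine (isE0_iff_exists_unit hc0 hc).mpr ⟨a / b, by rw [map_div₀, ha, hb, div_one], ?_⟩
  rw [thetaFun_sub hc0 hc, hθP, hθQ, cl_div hc0 ha0 hb0]

include hc0 hc in
/-- Theta is injective on torsion of order prime to the residue characteristic. -/
theorem eq_zero_of_thetaFun_eq_one (hn : (n : ResidueField A) ≠ 0) (hnP : n • P = 0)
    (hP : thetaFun A hc0 P = 1) : P = 0 := by
  classical
  rcases P with _ | ⟨x, y, h⟩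
  · rfl
  have hx : x ∉ A := (thetaFun_eq_one_iff hc0 hc h).mp hP
  exact (tateRedModel hc).eq_zero_of_red_eq_zero_of_nsmul_eq_zero
    (Or.inr ⟨x, y, h, rfl, Or.inl hx⟩) ((tateRedModel hc).red_some_of_not_mem h hx) hn hnP

include hc0 hc in
theorem eq_of_thetaFun_eq (hn : (n : ResidueField A) ≠ 0) (hnP : n • P = 0) (hnQ : n • Q = 0)
    (h : thetaFun A hc0 P = thetaFun A hc0 Q) : P = Q := by
  rw [← sub_eq_zero]
  refine eq_zero_of_thetaFun_eq_one hc0 hc hn ?_ ?_
  · rw [nsmul_sub, hnP, hnQ, sub_zero]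
  · rw [thetaFun_sub hc0 hc, h, div_self']

include hc0 hc in
/-- The theta representative of an `n`-torsion point. -/
lemma exists_pow_eq_of_torsion (hnP : n • P = 0) :
    ∃ (u : K) (k : ℤ), A.valuation (u - 1) < 1 ∧ thetaPtVal A P ^ n = u * (-c) ^ k := by
  refine exists_eq_mul_zpow_of_cl_eq_one hc0 (pow_ne_zero n (thetaPtVal_ne_zero hc0 hc P)) ?_
  rw [cl_pow hc0 (thetaPtVal_ne_zero hc0 hc P), ← thetaFun_eq_cl, ← thetaFun_nsmul hc0 hc, hnP]
  rfl

include hc0 hc in
/-- An `n`-torsion point whose exponent is divisible by `n` is on the identity component. -/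
lemma isE0_of_dvd (hn0 : n ≠ 0) {u : K} {k : ℤ} (hu : A.valuation (u - 1) < 1)
    (h : thetaPtVal A P ^ n = u * (-c) ^ k) (hnk : (n : ℤ) ∣ k) : IsE0 A P := by
  obtain ⟨m, rfl⟩ := hnk
  refine isE0_of_valuation_eq_zpow hc0 hc (k := m) ((pow_left_inj₀ zero_le zero_le hn0).mp ?_)
  rw [← map_pow, h, map_mul, valuation_of_approx_one hu, one_mul, map_zpow₀, A.valuation.map_neg,
    ← zpow_natCast (A.valuation c ^ m), ← zpow_mul, mul_comm]

include hc0 hc in
/-- **Component criterion**: a `p`-torsion point whose theta has valuation in `(v π)^ℤ`, where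
`v c = (v π)^N` and `p ∤ N`, is on the identity component. -/
theorem isE0_of_not_dvd {p N : ℕ} (hp : p.Prime) (hpN : ¬ p ∣ N) (hpP : p • P = 0) {π : K}
    (hN : A.valuation c = A.valuation π ^ N) {j : ℤ}
    (hj : A.valuation (thetaPtVal A P) = A.valuation π ^ j) : IsE0 A P := by
  obtain ⟨u, k, hu, h⟩ := exists_pow_eq_of_torsion hc0 hc hpP
  refine isE0_of_dvd hc0 hc hp.ne_zero hu h ?_
  have hN0 : N ≠ 0 := by rintro rfl; exact hpN (dvd_zero p)
  have hπ1 : A.valuation π < 1 := by
    by_contra hge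
    exact hc.not_ge (hN ▸ one_le_pow₀ (le_of_not_gt hge))
  have hπ0 : 0 < A.valuation π := by
    rw [zero_lt_iff]
    intro h0
    rw [h0, zero_pow hN0, map_eq_zero] at hN
    exact hc0 hN
  have hv := congrArg A.valuation h
  rw [map_pow, hj, map_mul, valuation_of_approx_one hu, one_mul, map_zpow₀, A.valuation.map_neg,
    hN, ← zpow_natCast, ← zpow_mul, ← zpow_natCast, ← zpow_mul] at hv
  have hjk : j * (p : ℤ) = (N : ℤ) * k := zpow_right_injective₀ hπ0 hπ1.ne hv
  have hcop : IsCoprime (p : ℤ) (N : ℤ) :=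
    (Int.isCoprime_iff_nat_coprime.mpr (by simpa using hp.coprime_iff_not_dvd.mpr hpN))
  exact hcop.dvd_of_dvd_mul_left ⟨j, by rw [← hjk, mul_comm]⟩

end points

/-! ### Automorphisms -/

section galois

variable (σ : K ≃+* K) (hσ : ∀ z ∈ A, A.valuation (σ z - z) < 1) (hσc : σ c = c)

include hσ in
lemma approx_map_of_valuation_eq_one {a : K} (ha : A.valuation a = 1) :
    A.valuation (σ a - a) < A.valuation a := by
  rw [ha]; exact hσ a ((A.valuation_le_one_iff a).mp ha.le)

include hσ in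
lemma valuation_map_eq_one {a : K} (ha : A.valuation a = 1) : A.valuation (σ a) = 1 :=
  (valuation_eq_of_approx (approx_map_of_valuation_eq_one σ hσ ha)).trans ha

include hσ in
lemma valuation_map_lt_one_iff (a : K) : A.valuation (σ a) < 1 ↔ A.valuation a < 1 := by
  have h1 : ∀ z : K, A.valuation z < 1 → A.valuation (σ z) < 1 := by
    intro z hz
    have := A.valuation.map_add_lt (hσ z ((A.valuation_le_one_iff z).mp hz.le)) hz
    rwa [sub_add_cancel] at this
  refine ⟨fun h => ?_, h1 a⟩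
  rcases lt_trichotomy (A.valuation a) 1 with ha | ha | ha
  · exact ha
  · exact absurd (valuation_map_eq_one σ hσ ha) h.ne
  · have := h1 a⁻¹ (by rw [map_inv₀]; exact inv_lt_one_of_one_lt₀ ha)
    rw [map_inv₀ σ, map_inv₀] at this
    rcases eq_or_lt_of_le (zero_le : 0 ≤ A.valuation (σ a)) with h0 | h0
    · rw [eq_comm, map_eq_zero, map_eq_zero] at h0
      rw [h0, map_zero] at ha
      exact absurd ha (not_lt.mpr zero_le)
    · exact absurd ((one_lt_inv₀ h0).mpr h) this.not_gt

include hσ in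
lemma valuation_map_le_iff (a b : K) :
    A.valuation (σ a) ≤ A.valuation (σ b) ↔ A.valuation a ≤ A.valuation b := by
  rcases eq_or_ne a 0 with rfl | ha
  · simp
  have hσa : σ a ≠ 0 := by simpa using ha
  have h := not_congr (valuation_map_lt_one_iff σ hσ (b / a))
  rwa [not_lt, not_lt, map_div₀ σ, map_div₀, map_div₀,
    one_le_div₀ (zero_lt_iff.mpr (A.valuation.ne_zero_iff.mpr hσa)),
    one_le_div₀ (zero_lt_iff.mpr (A.valuation.ne_zero_iff.mpr ha))] at h

include hσ hσc in
lemma thetaVal_map (x y : K) : thetaVal A c (σ x) (σ y) = σ (thetaVal A c x y) := by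
  have h1 : 1 ≤ A.valuation (σ x) ↔ 1 ≤ A.valuation x := by
    simpa only [not_lt] using not_congr (valuation_map_lt_one_iff σ hσ x)
  have h2 : A.valuation (σ y) ≤ A.valuation (σ y + σ x) ↔
      A.valuation y ≤ A.valuation (y + x) := by
    rw [← map_add σ]; exact valuation_map_le_iff σ hσ y (y + x)
  simp only [thetaVal, h1, h2]
  split_ifs <;> simp [hσc]

include hσc in
lemma tateModel_map : (tateModel c).toAffine.map σ.toRingHom = (tateModel c).toAffine := by
  show (tateModel c).map σ.toRingHom = tateModel c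
  ext <;> simp [tateModel, hσc]

include hσc in
lemma tateModel_nonsingular_map {x y : K} (h : (tateModel c).toAffine.Nonsingular x y) :
    (tateModel c).toAffine.Nonsingular (σ x) (σ y) := by
  have := ((tateModel c).toAffine.map_nonsingular σ.toRingHom.injective x y).mpr h
  rwa [tateModel_map σ hσc] at this

/-- The action of `σ` on points, `(x, y) ↦ (σ x, σ y)`. -/
def mapPt : (tateModel c).toAffine.Point → (tateModel c).toAffine.Point
  | 0 => 0
  | .some x y h => .some (σ x) (σ y) (tateModel_nonsingular_map σ hσc h)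

lemma mapPt_add [DecidableEq K] (P Q : (tateModel c).toAffine.Point) :
    mapPt σ hσc (P + Q) = mapPt σ hσc P + mapPt σ hσc Q := by
  rcases P with _ | ⟨x₁, y₁, h₁⟩
  · exact (zero_add (mapPt σ hσc Q)).symm
  rcases Q with _ | ⟨x₂, y₂, h₂⟩
  · exact (add_zero (mapPt σ hσc (Affine.Point.some x₁ y₁ h₁))).symm
  have hm := tateModel_map σ hσc
  have hnegY : (tateModel c).toAffine.negY (σ x₂) (σ y₂) =
      σ ((tateModel c).toAffine.negY x₂ y₂) := by
    have := Affine.map_negY (W' := (tateModel c).toAffine) σ.toRingHom x₂ y₂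
    rwa [hm] at this
  by_cases hxy : x₁ = x₂ ∧ y₁ = (tateModel c).toAffine.negY x₂ y₂
  · rw [Affine.Point.add_of_Y_eq hxy.1 hxy.2]
    exact (Affine.Point.add_of_Y_eq (congrArg σ hxy.1) (by rw [hnegY, hxy.2])).symm
  · have hxy' : ¬(σ x₁ = σ x₂ ∧ σ y₁ = (tateModel c).toAffine.negY (σ x₂) (σ y₂)) := by
      rw [hnegY]; exact fun h => hxy ⟨σ.injective h.1, σ.injective h.2⟩
    rw [Affine.Point.add_some hxy]
    refine Eq.trans ?_ (Affine.Point.add_some hxy').symm
    have hs := Affine.map_slope (W := (tateModel c).toAffine) σ.toRingHom x₁ x₂ y₁ y₂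
    rw [hm] at hs
    simp only [RingEquiv.toRingHom_eq_coe, RingHom.coe_coe] at hs
    simp only [mapPt, Affine.Point.some.injEq]
    constructor
    · have := Affine.map_addX (W' := (tateModel c).toAffine) σ.toRingHom x₁ x₂
        ((tateModel c).toAffine.slope x₁ x₂ y₁ y₂)
      rw [hm] at this
      simp only [RingEquiv.toRingHom_eq_coe, RingHom.coe_coe] at this
      rw [hs, this]
    · have := Affine.map_addY (W' := (tateModel c).toAffine) σ.toRingHom x₁ y₁ x₂
        ((tateModel c).toAffine.slope x₁ x₂ y₁ y₂)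
      rw [hm] at this
      simp only [RingEquiv.toRingHom_eq_coe, RingHom.coe_coe] at this
      rw [hs, this]

/-- The action of `σ` on points, as a homomorphism. -/
def mapHom [DecidableEq K] : (tateModel c).toAffine.Point →+ (tateModel c).toAffine.Point :=
  AddMonoidHom.mk' (mapPt σ hσc) (mapPt_add σ hσc)

include hσ in
lemma thetaPtVal_mapPt (P : (tateModel c).toAffine.Point) :
    thetaPtVal A (mapPt σ hσc P) = σ (thetaPtVal A P) := by
  rcases P with _ | ⟨x, y, h⟩
  · exact (map_one σ).symm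
  · exact thetaVal_map σ hσ hσc x y

variable (hc : A.valuation c < 1) [DecidableEq K] {n : ℕ} {P : (tateModel c).toAffine.Point}

lemma nsmul_mapPt (hnP : n • P = 0) : n • mapPt σ hσc P = 0 := by
  show n • mapHom σ hσc P = 0
  rw [← map_nsmul, hnP, map_zero]

lemma nsmul_mapPt_sub (hnP : n • P = 0) : n • (mapPt σ hσc P - P) = 0 := by
  rw [nsmul_sub, nsmul_mapPt σ hσc hnP, hnP, sub_zero]

include hc0 hc hσ in
lemma thetaFun_mapPt_sub :
    thetaFun A hc0 (mapPt σ hσc P - P) =
      cl A c hc0 (σ (thetaPtVal A P) / thetaPtVal A P) := by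
  have ha0 := thetaPtVal_ne_zero hc0 hc P
  rw [thetaFun_sub hc0 hc, thetaFun_eq_cl, thetaFun_eq_cl, thetaPtVal_mapPt σ hσ hσc,
    cl_div hc0 ((map_ne_zero σ).mpr ha0) ha0]

include hc0 hc hσ hσc in
/-- `σ a / a` is a unit, for the theta representative `a` of a torsion point. -/
lemma valuation_map_div_eq_one (hn0 : n ≠ 0) (hnP : n • P = 0) :
    A.valuation (σ (thetaPtVal A P) / thetaPtVal A P) = 1 := by
  obtain ⟨u, k, hu, hau⟩ := exists_pow_eq_of_torsion hc0 hc hnP
  have hu1 := valuation_of_approx_one hu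
  have : A.valuation (σ (thetaPtVal A P) / thetaPtVal A P) ^ n = 1 := by
    rw [← map_pow, div_pow, ← map_pow σ, hau, map_mul, map_zpow₀ σ, map_neg, hσc,
      mul_div_mul_right _ _ (zpow_ne_zero k (neg_ne_zero.mpr hc0)), map_div₀,
      valuation_map_eq_one σ hσ hu1, hu1, div_one]
  exact (pow_eq_one_iff_of_nonneg zero_le hn0).mp this

include hc0 hc hσ in
/-- `σ P - P` is on the identity component for a torsion point `P`. -/
theorem isE0_mapPt_sub (hn0 : n ≠ 0) (hnP : n • P = 0) : IsE0 A (mapPt σ hσc P - P) :=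
  (isE0_iff_exists_unit hc0 hc).mpr ⟨_, valuation_map_div_eq_one hc0 σ hσ hσc hc hn0 hnP,
    thetaFun_mapPt_sub hc0 σ hσ hσc hc⟩

include hc0 hc hσ in
/-- Prime-to-residue-characteristic torsion on the identity component is fixed. -/
theorem mapPt_eq_self_of_isE0 (hn : (n : ResidueField A) ≠ 0) (hnP : n • P = 0)
    (hP : IsE0 A P) : mapPt σ hσc P = P := by
  refine eq_of_thetaFun_eq hc0 hc hn (nsmul_mapPt σ hσc hnP) hnP ?_
  rw [thetaFun_eq_cl, thetaFun_eq_cl, thetaPtVal_mapPt σ hσ hσc]
  exact cl_eq_of_approx hc0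
    (approx_map_of_valuation_eq_one σ hσ (valuation_thetaPtVal_of_isE0 hc hP))

include hc0 hc hσ in
/-- **Inertia is unipotent**: `(τ - 1)(σ - 1) = 0` on torsion prime to the residue
characteristic. -/
theorem mapPt_sub_fixed (τ : K ≃+* K) (hτ : ∀ z ∈ A, A.valuation (τ z - z) < 1) (hτc : τ c = c)
    (hn : (n : ResidueField A) ≠ 0) (hnP : n • P = 0) :
    mapPt τ hτc (mapPt σ hσc P - P) = mapPt σ hσc P - P :=
  mapPt_eq_self_of_isE0 hc0 τ hτ hτc hc hn (nsmul_mapPt_sub σ hσc hnP)
    (isE0_mapPt_sub hc0 σ hσ hσc hc (by rintro rfl; simp at hn) hnP)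

include hc0 hc hσ in
/-- **Unramified criterion**: if `v c = (v π)ⁿ` with `σ π = π`, then `σ` fixes `n`-torsion. -/
theorem mapPt_eq_self (hn : (n : ResidueField A) ≠ 0) (hnP : n • P = 0) {π : K} (hπ : σ π = π)
    (hπc : A.valuation c = A.valuation π ^ n) : mapPt σ hσc P = P := by
  have hn0 : n ≠ 0 := by rintro rfl; simp at hn
  refine eq_of_thetaFun_eq hc0 hc hn (nsmul_mapPt σ hσc hnP) hnP ?_
  rw [thetaFun_eq_cl, thetaFun_eq_cl, thetaPtVal_mapPt σ hσ hσc]
  obtain ⟨u, k, hu, hau⟩ := exists_pow_eq_of_torsion hc0 hc hnP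
  have hπ0 : π ≠ 0 := by
    rintro rfl
    rw [map_zero, zero_pow hn0, map_eq_zero] at hπc
    exact hc0 hπc
  have ha' : A.valuation (thetaPtVal A P / π ^ k) = 1 := by
    apply (pow_eq_one_iff_of_nonneg zero_le hn0).mp
    rw [map_div₀, div_pow, ← map_pow, hau, map_mul, valuation_of_approx_one hu, one_mul,
      map_zpow₀, map_zpow₀, A.valuation.map_neg, hπc, ← zpow_natCast (A.valuation π ^ k),
      ← zpow_natCast, ← zpow_mul, ← zpow_mul, mul_comm, div_self]
    exact zpow_ne_zero _ (A.valuation.ne_zero_iff.mpr hπ0)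
  have happ := approx_map_of_valuation_eq_one σ hσ ha'
  rw [map_div₀ σ, map_zpow₀ σ, hπ, ← sub_div, map_div₀, map_div₀,
    div_lt_div_iff_of_pos_right (zero_lt_iff.mpr
      (A.valuation.ne_zero_iff.mpr (zpow_ne_zero k hπ0)))] at happ
  exact cl_eq_of_approx hc0 happ

/-! ### The `p`-torsion -/

variable {p : ℕ}

include hc0 hc in
lemma ncard_isE0_torsion_le (hp0 : p ≠ 0) (hpk : (p : ResidueField A) ≠ 0) :
    Nat.card {R : (tateModel c).toAffine.Point // p • R = 0 ∧ IsE0 A R} ≤ p := by
  classical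
  set roots := (Polynomial.nthRoots p (1 : ResidueField A)).toFinset
  let f : {R : (tateModel c).toAffine.Point // p • R = 0 ∧ IsE0 A R} → roots := fun R =>
    ⟨residue A ⟨thetaPtVal A R.1,
      (A.valuation_le_one_iff _).mp (valuation_thetaPtVal_of_isE0 hc R.2.2).le⟩, by
      rw [Multiset.mem_toFinset, Polynomial.mem_nthRoots (Nat.pos_of_ne_zero hp0), ← map_pow,
        ← map_one (residue A), ← sub_eq_zero, ← map_sub, residue_eq_zero_iff]
      refine (ValuationSubring.valuation_lt_one_iff A _).mpr ?_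
      push_cast
      obtain ⟨u, k, hu, hau⟩ := exists_pow_eq_of_torsion hc0 hc R.2.1
      have hk : k = 0 := by
        have hv := congrArg A.valuation hau
        rw [map_pow, valuation_thetaPtVal_of_isE0 hc R.2.2, one_pow, map_mul,
          valuation_of_approx_one hu, one_mul, map_zpow₀, A.valuation.map_neg] at hv
        exact (zpow_eq_one_iff_right₀ zero_le hc.ne).mp hv.symm
      rw [hau, hk, zpow_zero, mul_one]
      exact hu⟩
  have hf : Function.Injective f := by
    intro R S h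
    apply Subtype.ext
    refine eq_of_thetaFun_eq hc0 hc hpk R.2.1 S.2.1 ?_
    rw [thetaFun_eq_cl, thetaFun_eq_cl]
    apply cl_eq_of_approx
    rw [valuation_thetaPtVal_of_isE0 hc S.2.2]
    have h' := congrArg Subtype.val h
    simp only [f] at h'
    rw [← sub_eq_zero, ← map_sub, residue_eq_zero_iff] at h'
    have h'' := (ValuationSubring.valuation_lt_one_iff A _).mp h'
    push_cast at h''
    exact h''
  refine (Nat.card_le_card_of_injective f hf).trans ?_
  rw [Nat.card_eq_fintype_card, Fintype.card_coe]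
  exact (Multiset.toFinset_card_le _).trans (Polynomial.card_nthRoots p 1)

include hc0 hc in
/-- There is a `p`-torsion point whose theta is a `p`-th root `b` of `-c`. -/
theorem exists_thetaFun_eq_cl_root [IsAlgClosed K] (hp : p.Prime) (hpk : (p : ResidueField A) ≠ 0)
    (hcard : Nat.card {R : (tateModel c).toAffine.Point // p • R = 0} = p ^ 2) :
    ∃ (P : (tateModel c).toAffine.Point) (b : K),
      p • P = 0 ∧ b ^ p = -c ∧ thetaFun A hc0 P = cl A c hc0 b := by
  obtain ⟨R, hR, hRbad⟩ : ∃ R, p • R = 0 ∧ ¬ IsE0 A R := by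
    by_contra! hall
    have := ncard_isE0_torsion_le hc0 hc hp.ne_zero hpk
    rw [Nat.card_congr (Equiv.subtypeEquivRight fun R : (tateModel c).toAffine.Point =>
      (and_iff_left_of_imp (hall R))), hcard] at this
    exact this.not_gt (lt_self_pow₀ hp.one_lt (by norm_num))
  obtain ⟨u, k, hu, hau⟩ := exists_pow_eq_of_torsion hc0 hc hR
  have hpk' : ¬ (p : ℤ) ∣ k := fun h => hRbad (isE0_of_dvd hc0 hc hp.ne_zero hu hau h)
  have hcop : IsCoprime (p : ℤ) k :=
    (Nat.prime_iff_prime_int.mp hp).coprime_iff_not_dvd.mpr hpk'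
  obtain ⟨s, t, hst⟩ := hcop
  -- shift `t` by a multiple of `p` to a natural number
  set j : ℕ := (t % (p : ℤ)).toNat with hjdef
  have hj : (j : ℤ) = t % (p : ℤ) := Int.toNat_of_nonneg (Int.emod_nonneg _ (by simp [hp.ne_zero]))
  set m : ℤ := -s - k * (t / (p : ℤ)) with hmdef
  have hjk : k * (j : ℤ) = 1 + (p : ℤ) * m := by
    rw [hj, Int.emod_def, hmdef]; linear_combination hst
  set a := thetaPtVal A R with hadef
  have ha0 : a ≠ 0 := thetaPtVal_ne_zero hc0 hc R
  have hnc : (-c) ≠ 0 := neg_ne_zero.mpr hc0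
  set b₀ := a ^ j / (-c) ^ m with hb₀def
  have hb₀ : b₀ ^ p = u ^ j * -c := by
    rw [hb₀def, div_pow, ← pow_mul, mul_comm j p, pow_mul, hau, mul_pow, ← zpow_natCast
      ((-c) ^ k), ← zpow_mul, hjk, zpow_add₀ hnc, zpow_one, ← zpow_natCast ((-c) ^ m), ← zpow_mul,
      mul_comm m, mul_div_assoc, mul_div_assoc, div_self (zpow_ne_zero _ hnc), mul_one]
  -- a `p`-th root of `uʲ` congruent to `1`
  have hu0 : u ≠ 0 := by rintro rfl; simp at hu
  have huj : A.valuation (u ^ j - 1) < 1 := by
    have hur : residue A ⟨u, (A.valuation_le_one_iff _).mp (valuation_of_approx_one hu).le⟩ = 1 := by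
      rw [← map_one (residue A), ← sub_eq_zero, ← map_sub, residue_eq_zero_iff]
      exact (ValuationSubring.valuation_lt_one_iff A _).mpr (by push_cast; exact hu)
    have := congrArg (· ^ j) hur
    simp only [one_pow, ← map_pow] at this
    rw [← map_one (residue A), ← sub_eq_zero, ← map_sub, residue_eq_zero_iff] at this
    have := (ValuationSubring.valuation_lt_one_iff A _).mp this
    push_cast at this
    exact this
  obtain ⟨w, hw, hw1⟩ : ∃ w : K, w ^ p = u ^ j ∧ A.valuation (w - 1) < 1 := by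
    set F : Polynomial K := Polynomial.X ^ p - Polynomial.C (u ^ j) with hF
    have hsp : F.Splits := IsAlgClosed.splits F
    have heval := hsp.eval_eq_prod_roots_of_monic
      (Polynomial.monic_X_pow_sub_C _ hp.ne_zero) 1
    by_contra! hall
    have hval : A.valuation (F.eval 1) < 1 := by
      rw [hF]
      simp only [Polynomial.eval_sub, Polynomial.eval_pow, Polynomial.eval_X, Polynomial.eval_C,
        one_pow]
      rwa [← A.valuation.map_neg, neg_sub]
    rw [heval, map_multiset_prod, Multiset.map_map] at hval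
    refine hval.not_ge (Multiset.one_le_prod_of_one_le fun z hz => ?_)
    obtain ⟨r, hr, rfl⟩ := Multiset.mem_map.mp hz
    have hr' : r ^ p = u ^ j := by
      have := (Polynomial.mem_roots'.mp hr).2
      simpa [hF, sub_eq_zero] using this
    show 1 ≤ A.valuation (1 - r)
    rw [← A.valuation.map_neg, neg_sub]
    exact hall r hr'
  have hw0 : w ≠ 0 := by rintro rfl; simp at hw1
  refine ⟨j • R, b₀ / w, ?_, ?_, ?_⟩
  · rw [smul_comm, hR, smul_zero]
  · rw [div_pow, hw, hb₀, mul_div_assoc, mul_comm, div_mul_cancel₀]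
    exact pow_ne_zero j hu0
  · rw [thetaFun_nsmul hc0 hc, thetaFun_eq_cl, ← hadef, ← cl_pow hc0 ha0, hb₀def,
      cl_div hc0 (div_ne_zero (pow_ne_zero j ha0) (zpow_ne_zero m hnc)) hw0,
      cl_of_approx_one hc0 hw1, div_one, cl_div hc0 (pow_ne_zero j ha0) (zpow_ne_zero m hnc),
      cl_neg_c_zpow, div_one]

include hc0 hc in
/-- `E[p]` is generated by its points on the identity component and any other of its points,
so the former form a line. -/
theorem exists_isE0_sub_nsmul (hp : p.Prime) {R P : (tateModel c).toAffine.Point} {b : K}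
    (hR : p • R = 0) (hb : b ^ p = -c) (hP : thetaFun A hc0 P = cl A c hc0 b) :
    ∃ i : ℕ, i < p ∧ IsE0 A (R - i • P) := by
  obtain ⟨u, k, hu, hau⟩ := exists_pow_eq_of_torsion hc0 hc hR
  have hpz : (p : ℤ) ≠ 0 := by simp [hp.ne_zero]
  set i : ℕ := (k % (p : ℤ)).toNat with hidef
  have hi : (i : ℤ) = k % (p : ℤ) := Int.toNat_of_nonneg (Int.emod_nonneg _ hpz)
  refine ⟨i, ?_, ?_⟩
  · have := Int.emod_lt_of_pos k (show (0 : ℤ) < p by exact_mod_cast hp.pos)
    omega
  have hnc : (-c) ≠ 0 := neg_ne_zero.mpr hc0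
  have hb0 : b ≠ 0 := by rintro rfl; rw [zero_pow hp.ne_zero] at hb; exact hnc hb.symm
  have ha0 := thetaPtVal_ne_zero hc0 hc R
  set e : K := thetaPtVal A R / b ^ i / (-c) ^ (k / (p : ℤ)) with hedef
  refine (isE0_iff_exists_unit hc0 hc).mpr ⟨e, ?_, ?_⟩
  · apply (pow_eq_one_iff_of_nonneg zero_le hp.ne_zero).mp
    rw [← map_pow, hedef, div_pow, div_pow, hau, ← pow_mul, mul_comm i p, pow_mul, hb,
      ← zpow_natCast ((-c) ^ (k / (p : ℤ))), ← zpow_mul, ← zpow_natCast (-c) i, hi,
      div_div, ← zpow_add₀ hnc, mul_comm (k / (p : ℤ)), Int.emod_add_mul_ediv,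
      mul_div_assoc, div_self (zpow_ne_zero _ hnc), mul_one, valuation_of_approx_one hu]
  · rw [thetaFun_sub hc0 hc, thetaFun_nsmul hc0 hc, thetaFun_eq_cl, hP, ← cl_pow hc0 hb0, hedef,
      cl_div hc0 (div_ne_zero ha0 (pow_ne_zero i hb0)) (zpow_ne_zero _ hnc), cl_neg_c_zpow,
      div_one, cl_div hc0 ha0 (pow_ne_zero i hb0)]

include hc0 hc in
/-- The points of `E[p]` on the identity component form a group of order `p`. -/
theorem card_isE0_torsion [IsAlgClosed K] (hp : p.Prime) (hpk : (p : ResidueField A) ≠ 0)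
    (hcard : Nat.card {R : (tateModel c).toAffine.Point // p • R = 0} = p ^ 2) :
    Nat.card {R : (tateModel c).toAffine.Point // p • R = 0 ∧ IsE0 A R} = p := by
  refine le_antisymm (ncard_isE0_torsion_le hc0 hc hp.ne_zero hpk) ?_
  obtain ⟨P, b, hP, hb, hθ⟩ := exists_thetaFun_eq_cl_root hc0 hc hp hpk hcard
  have hfin : Finite {R : (tateModel c).toAffine.Point // p • R = 0} :=
    Nat.finite_of_card_ne_zero (hcard ▸ pow_ne_zero 2 hp.ne_zero)
  have hfin0 : Finite {R : (tateModel c).toAffine.Point // p • R = 0 ∧ IsE0 A R} :=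
    Finite.of_injective (fun R => (⟨R.1, R.2.1⟩ : {R : (tateModel c).toAffine.Point // p • R = 0}))
      fun a b h => Subtype.ext (congrArg Subtype.val h :)
  let g : {R : (tateModel c).toAffine.Point // p • R = 0 ∧ IsE0 A R} × Fin p →
      {R : (tateModel c).toAffine.Point // p • R = 0} := fun x =>
    ⟨x.1.1 + (x.2 : ℕ) • P, by rw [nsmul_add, x.1.2.1, smul_comm, hP, smul_zero, add_zero]⟩
  have hg : Function.Surjective g := by
    intro R
    obtain ⟨i, hi, hE0⟩ := exists_isE0_sub_nsmul hc0 hc hp R.2 hb hθ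
    exact ⟨(⟨R.1 - i • P,
      by rw [nsmul_sub, R.2, smul_comm, hP, smul_zero, sub_zero], hE0⟩, ⟨i, hi⟩),
      Subtype.ext (sub_add_cancel _ _)⟩
  have := Nat.card_le_card_of_surjective g hg
  rw [hcard, Nat.card_prod, Nat.card_fin, sq] at this
  exact Nat.le_of_mul_le_mul_right this hp.pos

include hc0 hc hσ in
/-- `σ` moving the root `b` of `-c` moves the corresponding point. -/
theorem mapPt_ne_self (hp0 : p ≠ 0) {b : K} (hb : b ^ p = -c)
    (hP : thetaFun A hc0 P = cl A c hc0 b) (hσb : A.valuation (σ b / b - 1) = 1) :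
    mapPt σ hσc P ≠ P := by
  intro hfix
  have hnc : (-c) ≠ 0 := neg_ne_zero.mpr hc0
  have hb0 : b ≠ 0 := by rintro rfl; rw [zero_pow hp0] at hb; exact hnc hb.symm
  have ha0 := thetaPtVal_ne_zero hc0 hc P
  have hσb0 : σ b ≠ 0 := (map_ne_zero σ).mpr hb0
  have hσba : A.valuation (σ b / b) = 1 := by
    apply (pow_eq_one_iff_of_nonneg zero_le hp0).mp
    rw [← map_pow, div_pow, ← map_pow σ, hb, map_neg σ, hσc, div_self hnc, map_one]
  rw [thetaFun_eq_cl, ← div_eq_one, ← cl_div hc0 ha0 hb0] at hP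
  obtain ⟨u, k, hu, hau⟩ := exists_eq_mul_zpow_of_cl_eq_one hc0 (div_ne_zero ha0 hb0) hP
  have hu0 : u ≠ 0 := by rintro rfl; simp at hu
  have e : σ (thetaPtVal A P) / thetaPtVal A P = σ u / u * (σ b / b) := by
    rw [(div_eq_iff hb0).mp hau, map_mul, map_mul, map_zpow₀ σ, map_neg σ, hσc]
    field_simp
  have h1 : cl A c hc0 (σ b / b) = 1 := by
    have h2 := thetaFun_mapPt_sub (P := P) hc0 σ hσ hσc hc
    rw [hfix, sub_self, e, cl_mul hc0 (div_ne_zero ((map_ne_zero σ).mpr hu0) hu0)
      (div_ne_zero hσb0 hb0), cl_div hc0 ((map_ne_zero σ).mpr hu0) hu0,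
      cl_eq_of_approx hc0 (approx_map_of_valuation_eq_one σ hσ (valuation_of_approx_one hu)),
      div_self', one_mul] at h2
    exact h2.symm
  obtain ⟨j, hj, hj0⟩ := cl_eq_one hc0 (div_ne_zero hσb0 hb0) h1
  rw [hσba] at hj
  exact (hj0 ((zpow_eq_one_iff_right₀ zero_le hc.ne).mp hj.symm)).ne hσb

include hc0 hc hσ in
/-- When such a `σ` exists, the fixed points in `E[p]` are those on the identity component. -/
theorem isE0_of_mapPt_eq_self (hp : p.Prime) (hpk : (p : ResidueField A) ≠ 0) {b : K}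
    {R : (tateModel c).toAffine.Point} (hP0 : p • P = 0) (hb : b ^ p = -c)
    (hP : thetaFun A hc0 P = cl A c hc0 b) (hσb : A.valuation (σ b / b - 1) = 1)
    (hR : p • R = 0) (hfix : mapPt σ hσc R = R) : IsE0 A R := by
  obtain ⟨i, hip, hE0⟩ := exists_isE0_sub_nsmul hc0 hc hp hR hb hP
  have hfix' : mapPt σ hσc (R - i • P) = R - i • P :=
    mapPt_eq_self_of_isE0 hc0 σ hσ hσc hc hpk
      (by rw [nsmul_sub, hR, smul_comm, hP0, smul_zero, sub_zero]) hE0
  rcases Nat.eq_zero_or_pos i with rfl | hipos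
  · rwa [zero_smul, sub_zero] at hE0
  exfalso
  have hzero : i • (mapPt σ hσc P - P) = 0 := by
    have h := map_sub (mapHom σ hσc) R (i • P)
    rw [map_nsmul] at h
    change mapPt σ hσc (R - i • P) = mapPt σ hσc R - i • mapPt σ hσc P at h
    rw [hfix', hfix] at h
    rw [nsmul_sub, sub_eq_zero]
    exact (sub_right_injective h).symm
  have hcop : Nat.Coprime i p :=
    (hp.coprime_iff_not_dvd.mpr fun h => absurd (Nat.le_of_dvd hipos h) (by omega)).symm
  have h1 : addOrderOf (mapPt σ hσc P - P) ∣ Nat.gcd i p :=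
    Nat.dvd_gcd (addOrderOf_dvd_of_nsmul_eq_zero hzero)
      (addOrderOf_dvd_of_nsmul_eq_zero (nsmul_mapPt_sub σ hσc hP0))
  rw [hcop.gcd_eq_one, Nat.dvd_one, AddMonoid.addOrderOf_eq_one_iff, sub_eq_zero] at h1
  exact mapPt_ne_self hc0 σ hσ hσc hc hp.ne_zero hb hP hσb h1

end galois

end Fermat.Agent.EC.TateTheta
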