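import Mathlib.AlgebraicGeometry.EllipticCurve.Affine.Point
import Mathlib.RingTheory.Valuation.ValuationSubring
import Mathlib.GroupTheory.QuotientGroup.Basic
import Mathlib.Tactic.LinearCombination
import Mathlib.Tactic.FieldSimp

/-!
# The theta map of a curve `y² + xy = x³ + c` with `v(c) < 1`

For a valuation subring `A` of a field `K` and a nonzero nonunit `c`, the curve
`y² + xy = x³ + c` reduces to a split node.  We construct, by elementary means, the homomorphism
`E(K) → Kˣ / (1 + m_A) · (-c)^ℤ` which in the analytic theory is the leading term of the Tate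
parameter.  Its kernel is the kernel of reduction, and its valuation is the component map.
-/

set_option autoImplicit false

noncomputable section

namespace Fermat.Agent.EC.TateTheta

open WeierstrassCurve

variable {K : Type*} [Field K]

/-- The normal form `y² + xy = x³ + c`. -/
def tateModel (c : K) : WeierstrassCurve K := ⟨1, 0, 0, 0, c⟩

lemma tateModel_equation_iff (c x y : K) :
    (tateModel c).toAffine.Equation x y ↔ y * (y + x) = x ^ 3 + c := by
  rw [Affine.equation_iff]
  simp only [tateModel, one_mul, zero_mul, add_zero]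
  constructor <;> intro h <;> linear_combination h

lemma tateModel_negY (c x y : K) : (tateModel c).toAffine.negY x y = -y - x := by
  simp [Affine.negY, tateModel]

variable (A : ValuationSubring K) (c : K)

/-- `(1 + m_A) · (-c)^ℤ`. -/
def thetaKer (hc0 : c ≠ 0) : Subgroup Kˣ :=
  A.principalUnitGroup ⊔ Subgroup.zpowers (-(Units.mk0 c hc0))

/-- The group `Kˣ / (1 + m_A) (-c)^ℤ`. -/
def ThetaTarget (hc0 : c ≠ 0) : Type _ := Kˣ ⧸ thetaKer A c hc0

instance (hc0 : c ≠ 0) : CommGroup (ThetaTarget A c hc0) :=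
  QuotientGroup.Quotient.commGroup (thetaKer A c hc0)

/-- The projection to `ThetaTarget`. -/
def mkTarget (hc0 : c ≠ 0) : Kˣ →* ThetaTarget A c hc0 := QuotientGroup.mk' (thetaKer A c hc0)

lemma mkTarget_eq_one_iff (hc0 : c ≠ 0) (u : Kˣ) :
    mkTarget A c hc0 u = 1 ↔ u ∈ thetaKer A c hc0 := QuotientGroup.eq_one_iff u

lemma mkTarget_eq_iff (hc0 : c ≠ 0) (u v : Kˣ) :
    mkTarget A c hc0 u = mkTarget A c hc0 v ↔ u⁻¹ * v ∈ thetaKer A c hc0 := QuotientGroup.eq

/-- Class in `Kˣ / (1 + m_A) (-c)^ℤ`; zero is sent to `1`. -/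
def cl (hc0 : c ≠ 0) (a : K) : ThetaTarget A c hc0 :=
  open Classical in if h : a = 0 then 1 else mkTarget A c hc0 (Units.mk0 a h)

variable {A c} (hc0 : c ≠ 0)

lemma cl_of_ne {a : K} (ha : a ≠ 0) : cl A c hc0 a = mkTarget A c hc0 (Units.mk0 a ha) := by
  rw [cl, dif_neg ha]

lemma cl_one : cl A c hc0 1 = 1 := by
  rw [cl_of_ne hc0 one_ne_zero, Units.mk0_one, map_one]

lemma cl_mul {a b : K} (ha : a ≠ 0) (hb : b ≠ 0) :
    cl A c hc0 (a * b) = cl A c hc0 a * cl A c hc0 b := by
  rw [cl_of_ne hc0 ha, cl_of_ne hc0 hb, cl_of_ne hc0 (mul_ne_zero ha hb), Units.mk0_mul, map_mul]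

lemma cl_div {a b : K} (ha : a ≠ 0) (hb : b ≠ 0) :
    cl A c hc0 (a / b) = cl A c hc0 a / cl A c hc0 b := by
  have h := cl_mul (A := A) hc0 (div_ne_zero ha hb) hb
  rw [div_mul_cancel₀ a hb] at h
  rw [h, mul_div_cancel_right]

lemma cl_neg_c : cl A c hc0 (-c) = 1 := by
  rw [cl_of_ne hc0 (neg_ne_zero.mpr hc0), mkTarget_eq_one_iff]
  apply Subgroup.mem_sup_right
  have : Units.mk0 (-c) (neg_ne_zero.mpr hc0) = -(Units.mk0 c hc0) := Units.ext rfl
  rw [this]
  exact Subgroup.mem_zpowers _

lemma ne_zero_of_approx {a b : K} (h : A.valuation (a - b) < A.valuation b) : a ≠ 0 := by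
  rintro rfl
  simp at h

lemma ne_zero_right_of_approx {a b : K} (h : A.valuation (a - b) < A.valuation b) : b ≠ 0 := by
  rintro rfl
  simp at h

lemma valuation_eq_of_approx {a b : K} (h : A.valuation (a - b) < A.valuation b) :
    A.valuation a = A.valuation b := by
  have := A.valuation.map_add_eq_of_lt_left h
  rwa [add_sub_cancel] at this

/-- If `a` and `b` agree to leading order they have the same class. -/
lemma cl_eq_of_approx {a b : K} (h : A.valuation (a - b) < A.valuation b) :
    cl A c hc0 a = cl A c hc0 b := by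
  have ha := ne_zero_of_approx h
  have hb := ne_zero_right_of_approx h
  rw [cl_of_ne hc0 ha, cl_of_ne hc0 hb]
  refine ((mkTarget_eq_iff A c hc0 _ _).mpr ?_).symm
  apply Subgroup.mem_sup_left
  rw [A.mem_principalUnitGroup_iff]
  have hb' : 0 < A.valuation b := zero_lt_iff.mpr (A.valuation.ne_zero_iff.mpr hb)
  have : ((((Units.mk0 b hb)⁻¹ * Units.mk0 a ha : Kˣ)) : K) - 1 = (a - b) / b := by
    simp only [Units.val_mul, Units.val_inv_eq_inv_val, Units.val_mk0]
    field_simp
  rw [this, map_div₀]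
  exact (div_lt_one₀ hb').mpr h

/-! ### Local facts about one point -/

section point

variable {x y : K} (hc : A.valuation c < 1) (he : y * (y + x) = x ^ 3 + c)

include hc0 he in
lemma y_ne_zero_or : y ≠ 0 ∨ y + x ≠ 0 := by
  by_contra h
  simp only [not_or, not_not] at h
  obtain ⟨rfl, h2⟩ := h
  rw [zero_add] at h2
  subst h2
  simp at he
  exact hc0 he.symm

include hc he in
/-- On the identity component, `v y = v (y + x)` and `(v y)² = (v x)³`. -/
lemma good_facts (hx : 1 ≤ A.valuation x) :
    A.valuation y = A.valuation (y + x) ∧ A.valuation y ^ 2 = A.valuation x ^ 3 ∧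
      1 ≤ A.valuation y ∧ y ≠ 0 ∧ y + x ≠ 0 := by
  have hx3 : 1 ≤ A.valuation x ^ 3 := one_le_pow₀ hx
  have hprod : A.valuation y * A.valuation (y + x) = A.valuation x ^ 3 := by
    rw [← map_mul, he, ← map_pow]
    apply A.valuation.map_add_eq_of_lt_left
    rw [map_pow]
    exact hc.trans_le hx3
  have heq : A.valuation y = A.valuation (y + x) := by
    by_contra hne
    have hmax : A.valuation x = max (A.valuation y) (A.valuation (y + x)) := by
      rw [← A.valuation.map_neg y] at hne ⊢
      have := A.valuation.map_add_of_distinct_val hne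
      rwa [neg_add_cancel_left] at this
    have hlt : A.valuation y * A.valuation (y + x) < A.valuation x * A.valuation x := by
      have hxpos : 0 < A.valuation x := zero_lt_one.trans_le hx
      rcases lt_or_gt_of_ne hne with h | h
      · rw [max_eq_right h.le] at hmax
        rw [← hmax]
        exact mul_lt_mul_of_pos_right (hmax ▸ h) hxpos
      · rw [max_eq_left h.le] at hmax
        rw [← hmax]
        exact mul_lt_mul_of_pos_left (hmax ▸ h) hxpos
    rw [hprod] at hlt
    refine hlt.not_ge ?_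
    rw [← sq]
    exact pow_le_pow_right₀ hx (by norm_num)
  have hsq : A.valuation y ^ 2 = A.valuation x ^ 3 := by
    rw [sq]; conv_lhs => arg 2; rw [heq]
    exact hprod
  have hy1 : 1 ≤ A.valuation y := by
    by_contra h
    rw [not_le] at h
    exact (pow_lt_one₀ zero_le h (by norm_num : (2 : ℕ) ≠ 0)).not_ge (hsq ▸ hx3)
  refine ⟨heq, hsq, hy1, ?_, ?_⟩
  · rintro rfl; simp at hy1
  · intro h; rw [heq, h] at hy1; simp at hy1

include hc he in
/-- Off the identity component, `y` and `y + x` are nonunits. -/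
lemma bad_facts (hx : A.valuation x < 1) :
    A.valuation y < 1 ∧ A.valuation (y + x) < 1 := by
  have hprod : A.valuation y * A.valuation (y + x) < 1 := by
    rw [← map_mul, he]
    refine A.valuation.map_add_lt ?_ hc
    rw [map_pow]
    exact pow_lt_one₀ zero_le hx (by norm_num)
  have hy : A.valuation y < 1 := by
    by_contra h
    rw [not_lt] at h
    rw [A.valuation.map_add_eq_of_lt_left (hx.trans_le h)] at hprod
    exact hprod.not_ge (one_le_mul h h)
  exact ⟨hy, A.valuation.map_add_lt hy hx⟩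

include hc he hc0 in
/-- If `w` is the larger of `v y`, `v (y + x)` off the identity component then `v c < w`. -/
lemma valuation_c_lt (hx : A.valuation x < 1) :
    A.valuation c < max (A.valuation y) (A.valuation (y + x)) := by
  set w := max (A.valuation y) (A.valuation (y + x))
  obtain ⟨h1, h2⟩ := bad_facts hc he hx
  have hw : w < 1 := max_lt h1 h2
  have hxw : A.valuation x ≤ w := by
    have := A.valuation.map_sub (y + x) y
    rwa [add_sub_cancel_left, max_comm] at this
  by_contra hle
  rw [not_lt] at hle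
  have hcpos : 0 < A.valuation c := zero_lt_iff.mpr (A.valuation.ne_zero_iff.mpr hc0)
  have hx3 : A.valuation (x ^ 3) < A.valuation c := by
    rw [map_pow]
    calc A.valuation x ^ 3 ≤ A.valuation c ^ 3 := by
          exact pow_le_pow_left₀ zero_le (hxw.trans hle) _
      _ < A.valuation c ^ 1 := pow_lt_pow_right_of_lt_one₀ hcpos hc (by norm_num)
      _ = _ := pow_one _
  have hprod : A.valuation y * A.valuation (y + x) = A.valuation c := by
    rw [← map_mul, he, A.valuation.map_add_eq_of_lt_right hx3]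
  have : A.valuation c ≤ A.valuation c * A.valuation c := by
    conv_lhs => rw [← hprod]
    exact mul_le_mul' ((le_max_left _ _).trans hle) ((le_max_right _ _).trans hle)
  exact this.not_gt (mul_lt_of_lt_one_left hcpos hc)

include hc he hc0 in
/-- The two formulas for theta agree when `v y = v (y + x)`. -/
lemma cl_mid (hx : A.valuation x < 1) (heq : A.valuation y = A.valuation (y + x)) :
    cl A c hc0 (c / y) = cl A c hc0 (y + x) := by
  obtain ⟨h1, _⟩ := bad_facts hc he hx
  have hy0 : y ≠ 0 := by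
    intro h
    rcases y_ne_zero_or hc0 he with h' | h'
    · exact h' h
    · rw [h, map_zero, eq_comm, map_eq_zero] at heq
      rw [h] at h'; exact h' heq
  have hyx0 : y + x ≠ 0 := by
    intro h; rw [h, map_zero, map_eq_zero] at heq; exact hy0 heq
  have hypos : 0 < A.valuation y := zero_lt_iff.mpr (A.valuation.ne_zero_iff.mpr hy0)
  have hxw : A.valuation x ≤ A.valuation y := by
    have := A.valuation.map_sub (y + x) y
    rwa [add_sub_cancel_left, ← heq, max_self] at this
  have happ : A.valuation (c - y * (y + x)) < A.valuation (y * (y + x)) := by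
    rw [map_mul, ← heq, he, sub_add_cancel_right, A.valuation.map_neg, map_pow]
    calc A.valuation x ^ 3 ≤ A.valuation y ^ 3 := pow_le_pow_left₀ zero_le hxw _
      _ < A.valuation y ^ 2 := pow_lt_pow_right_of_lt_one₀ hypos h1 (by norm_num)
      _ = _ := sq _
  rw [cl_div hc0 hc0 hy0, cl_eq_of_approx hc0 happ, cl_mul hc0 hy0 hyx0, div_eq_mul_inv, mul_right_comm, mul_inv_cancel, one_mul]

end point

/-! ### Theta on affine coordinates -/

variable (A) in
/-- Theta of the affine point `(x, y)`. -/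
def thetaXY (x y : K) : ThetaTarget A c hc0 :=
  if 1 ≤ A.valuation x then cl A c hc0 (y / (y + x))
  else if A.valuation y ≤ A.valuation (y + x) then cl A c hc0 (y + x)
  else cl A c hc0 (c / y)

section point2

variable {x y : K} (hc : A.valuation c < 1) (he : y * (y + x) = x ^ 3 + c)

lemma thetaXY_good (hx : 1 ≤ A.valuation x) :
    thetaXY A hc0 x y = cl A c hc0 (y / (y + x)) := if_pos hx

lemma thetaXY_left (hx : A.valuation x < 1) (h : A.valuation y ≤ A.valuation (y + x)) :
    thetaXY A hc0 x y = cl A c hc0 (y + x) := by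
  rw [thetaXY, if_neg hx.not_ge, if_pos h]

include hc he in
lemma thetaXY_right (hx : A.valuation x < 1) (h : A.valuation (y + x) ≤ A.valuation y) :
    thetaXY A hc0 x y = cl A c hc0 (c / y) := by
  rcases h.eq_or_lt with h | h
  · rw [thetaXY_left hc0 hx h.ge, cl_mid hc0 hc he hx h.symm]
  · rw [thetaXY, if_neg hx.not_ge, if_neg h.not_ge]

include hc he in
lemma thetaXY_neg : thetaXY A hc0 x (-y - x) = (thetaXY A hc0 x y)⁻¹ := by
  have hyx : (-y - x) + x = -y := by ring
  have hny : -y - x = -(y + x) := by ring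
  have he' : (-y - x) * ((-y - x) + x) = x ^ 3 + c := by rw [← he]; ring
  rcases le_or_gt 1 (A.valuation x) with hx | hx
  · obtain ⟨-, -, -, hy0, hyx0⟩ := good_facts hc he hx
    rw [thetaXY_good hc0 hx, thetaXY_good hc0 hx, hyx, hny, neg_div_neg_eq,
      cl_div hc0 hyx0 hy0, cl_div hc0 hy0 hyx0, inv_div]
  · apply eq_inv_of_mul_eq_one_right
    rcases le_total (A.valuation y) (A.valuation (y + x)) with h | h
    · have hyx0 : y + x ≠ 0 := by
        intro h0
        rw [h0, map_zero, le_zero_iff, map_eq_zero] at h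
        rcases y_ne_zero_or hc0 he with h' | h' <;> contradiction
      have h' : A.valuation (-y - x + x) ≤ A.valuation (-y - x) := by
        rw [hyx, hny, A.valuation.map_neg, A.valuation.map_neg]; exact h
      rw [thetaXY_left hc0 hx h, thetaXY_right hc0 hc he' hx h', hny,
        ← cl_mul hc0 hyx0 (div_ne_zero hc0 (neg_ne_zero.mpr hyx0))]
      convert cl_neg_c (A := A) hc0 using 2
      field_simp
    · have hy0 : y ≠ 0 := by
        intro h0
        rw [h0, map_zero, le_zero_iff, map_eq_zero] at h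
        rcases y_ne_zero_or hc0 he with h' | h'
        · exact h' h0
        · exact h' (by rw [h0]; exact h)
      have h' : A.valuation (-y - x) ≤ A.valuation (-y - x + x) := by
        rw [hyx, hny, A.valuation.map_neg, A.valuation.map_neg]; exact h
      rw [thetaXY_right hc0 hc he hx h, thetaXY_left hc0 hx h', hyx,
        ← cl_mul hc0 (div_ne_zero hc0 hy0) (neg_ne_zero.mpr hy0)]
      convert cl_neg_c (A := A) hc0 using 2
      field_simp

end point2

/-! ### Three collinear points -/

/-- The relations between three roots of the cubic cut out by the line `y = l x + m`. -/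
structure Collinear (c x₁ x₂ x₃ l m : K) : Prop where
  e₁ : x₁ + x₂ + x₃ = l ^ 2 + l
  e₂ : x₁ * x₂ + x₁ * x₃ + x₂ * x₃ = -m * (2 * l + 1)
  e₃ : x₁ * x₂ * x₃ = m ^ 2 - c

namespace Collinear

variable {x₁ x₂ x₃ l m : K}

lemma swap₁₂ (h : Collinear c x₁ x₂ x₃ l m) : Collinear c x₂ x₁ x₃ l m :=
  ⟨by rw [← h.e₁]; ring, by rw [← h.e₂]; ring, by rw [← h.e₃]; ring⟩

lemma swap₂₃ (h : Collinear c x₁ x₂ x₃ l m) : Collinear c x₁ x₃ x₂ l m :=
  ⟨by rw [← h.e₁]; ring, by rw [← h.e₂]; ring, by rw [← h.e₃]; ring⟩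

lemma negLine (h : Collinear c x₁ x₂ x₃ l m) : Collinear c x₁ x₂ x₃ (-1 - l) (-m) :=
  ⟨by rw [h.e₁]; ring, by rw [h.e₂]; ring, by rw [h.e₃]; ring⟩

lemma equation₁ (h : Collinear c x₁ x₂ x₃ l m) :
    (l * x₁ + m) * (l * x₁ + m + x₁) = x₁ ^ 3 + c := by
  linear_combination (-x₁ ^ 2) * h.e₁ + x₁ * h.e₂ - h.e₃

lemma equation₂ (h : Collinear c x₁ x₂ x₃ l m) :
    (l * x₂ + m) * (l * x₂ + m + x₂) = x₂ ^ 3 + c := h.swap₁₂.equation₁

lemma equation₃ (h : Collinear c x₁ x₂ x₃ l m) :
    (l * x₃ + m) * (l * x₃ + m + x₃) = x₃ ^ 3 + c := h.swap₂₃.swap₁₂.equation₁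

end Collinear

variable (A) in
/-- Theta of the point of the line `y = l x + m` with abscissa `x`. -/
def thetaLine (l m x : K) : ThetaTarget A c hc0 := thetaXY A hc0 x (l * x + m)

section collinear

variable {x₁ x₂ x₃ l m : K} (hc : A.valuation c < 1) (h : Collinear c x₁ x₂ x₃ l m)

include hc h in
/-- All three points on the identity component. -/
lemma prod_ggg (h1 : 1 ≤ A.valuation x₁) (h2 : 1 ≤ A.valuation x₂) (h3 : 1 ≤ A.valuation x₃) :
    thetaLine A hc0 l m x₁ * thetaLine A hc0 l m x₂ * thetaLine A hc0 l m x₃ = 1 := by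
  obtain ⟨he1, hs1, hy1, hy10, hyx10⟩ := good_facts hc h.equation₁ h1
  obtain ⟨he2, hs2, hy2, hy20, hyx20⟩ := good_facts hc h.equation₂ h2
  obtain ⟨he3, hs3, hy3, hy30, hyx30⟩ := good_facts hc h.equation₃ h3
  simp only [thetaLine, thetaXY_good hc0 h1, thetaXY_good hc0 h2, thetaXY_good hc0 h3]
  rw [cl_div hc0 hy10 hyx10, cl_div hc0 hy20 hyx20, cl_div hc0 hy30 hyx30,
    div_mul_div_comm, div_mul_div_comm, ← cl_mul hc0 hy10 hy20,
    ← cl_mul hc0 (mul_ne_zero hy10 hy20) hy30, ← cl_mul hc0 hyx10 hyx20,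
    ← cl_mul hc0 (mul_ne_zero hyx10 hyx20) hyx30, div_eq_one]
  apply cl_eq_of_approx
  have hd : (l * x₁ + m) * (l * x₂ + m) * (l * x₃ + m) -
      (l * x₁ + m + x₁) * (l * x₂ + m + x₂) * (l * x₃ + m + x₃) =
        c * (3 * l ^ 2 + 3 * l + 1) := by
    linear_combination (-m ^ 2) * h.e₁ - m * (2 * l + 1) * h.e₂ - (3 * l ^ 2 + 3 * l + 1) * h.e₃
  rw [hd, map_mul, map_mul, map_mul, ← he1, ← he2, ← he3]
  have hl3 : A.valuation (3 : K) ≤ 1 :=
    (A.valuation_le_one_iff _).mpr (natCast_mem A.toSubring 3)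
  have hpoly : A.valuation (3 * l ^ 2 + 3 * l + 1) ≤ max 1 (A.valuation l ^ 2) := by
    refine A.valuation.map_add_le (A.valuation.map_add_le ?_ ?_) ?_
    · rw [map_mul, map_pow]
      exact (mul_le_of_le_one_left zero_le hl3).trans (le_max_right _ _)
    · rw [map_mul]
      refine (mul_le_of_le_one_left zero_le hl3).trans ?_
      rcases le_total (A.valuation l) 1 with hl | hl
      · exact hl.trans (le_max_left _ _)
      · exact (le_self_pow₀ hl two_ne_zero).trans (le_max_right _ _)
    · rw [map_one]; exact le_max_left _ _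
  have key : max 1 (A.valuation l ^ 2) ≤
      A.valuation (l * x₁ + m) * A.valuation (l * x₂ + m) * A.valuation (l * x₃ + m) := by
    refine max_le (one_le_mul (one_le_mul hy1 hy2) hy3) ?_
    rcases le_or_gt (A.valuation l) 1 with hl | hl
    · exact (pow_le_one₀ zero_le hl).trans (one_le_mul (one_le_mul hy1 hy2) hy3)
    have hl2 : A.valuation (l ^ 2 + l) = A.valuation l ^ 2 := by
      rw [← map_pow]
      apply A.valuation.map_add_eq_of_lt_left
      rw [map_pow]
      exact lt_self_pow₀ hl (by norm_num)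
    have hyge : ∀ a b : A.ValueGroup, 1 ≤ a → b ^ 2 = a ^ 3 → a ≤ b := by
      intro a b ha hab
      by_contra hlt
      rw [not_le] at hlt
      have : b ^ 2 < a ^ 2 := pow_lt_pow_left₀ hlt zero_le two_ne_zero
      rw [hab] at this
      exact this.not_ge (pow_le_pow_right₀ ha (by norm_num))
    have hmax : A.valuation l ^ 2 ≤
        max (max (A.valuation x₁) (A.valuation x₂)) (A.valuation x₃) := by
      rw [← hl2, ← h.e₁]
      exact A.valuation.map_add_le ((A.valuation.map_add _ _).trans (le_max_left _ _))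
        (le_max_right _ _)
    refine hmax.trans (max_le (max_le ?_ ?_) ?_)
    · refine (hyge _ _ h1 hs1).trans ?_
      exact le_mul_of_one_le_right' hy2 |>.trans (le_mul_of_one_le_right' hy3)
    · refine (hyge _ _ h2 hs2).trans ?_
      exact le_mul_of_one_le_left' hy1 |>.trans (le_mul_of_one_le_right' hy3)
    · exact (hyge _ _ h3 hs3).trans (le_mul_of_one_le_left' (one_le_mul hy1 hy2))
  calc A.valuation c * A.valuation (3 * l ^ 2 + 3 * l + 1)
      ≤ A.valuation c * max 1 (A.valuation l ^ 2) := by gcongr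
    _ < 1 * max 1 (A.valuation l ^ 2) :=
        mul_lt_mul_of_pos_right hc (zero_lt_one.trans_le (le_max_left _ _))
    _ ≤ _ := by rw [one_mul]; exact key

include hc h in
/-- The identity component is closed: one point off it and two on it is impossible. -/
lemma not_bgg (h1 : A.valuation x₁ < 1) (h2 : 1 ≤ A.valuation x₂) (h3 : 1 ≤ A.valuation x₃) :
    False := by
  obtain ⟨hy1, -⟩ := bad_facts hc h.equation₁ h1
  have hlx : A.valuation (l * x₁) ≤ A.valuation l := by
    rw [map_mul]; exact mul_le_of_le_one_right zero_le h1.le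
  have hm_eq : m = (l * x₁ + m) - l * x₁ := by ring
  have hl2one : A.valuation (2 * l + 1) ≤ max 1 (A.valuation l) := by
    refine A.valuation.map_add_le ?_ ?_
    · rw [map_mul]
      exact (mul_le_of_le_one_left zero_le
        ((A.valuation_le_one_iff _).mpr (natCast_mem A.toSubring 2))).trans (le_max_right _ _)
    · rw [map_one]; exact le_max_left _ _
  set M := max 1 (A.valuation l) with hM
  have hM1 : 1 ≤ M := le_max_left _ _
  have hMpos : 0 < M := zero_lt_one.trans_le hM1
  have hm : A.valuation m < M := by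
    rw [hm_eq]
    refine (A.valuation.map_sub _ _).trans_lt (max_lt (hy1.trans_le hM1) ?_)
    rw [map_mul]
    calc A.valuation l * A.valuation x₁ ≤ M * A.valuation x₁ := by
          gcongr; exact le_max_right _ _
      _ < M * 1 := mul_lt_mul_of_pos_left h1 hMpos
      _ = M := mul_one _
  have hsum : A.valuation (x₂ + x₃) ≤ M * M := by
    have : x₂ + x₃ = l ^ 2 + l - x₁ := by linear_combination h.e₁
    rw [this]
    refine (A.valuation.map_sub _ _).trans (max_le ?_ (h1.le.trans (one_le_mul hM1 hM1)))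
    refine A.valuation.map_add_le ?_ ((le_max_right _ _).trans (le_mul_of_one_le_left' hM1))
    rw [map_pow, sq]
    exact mul_le_mul' (le_max_right _ _) (le_max_right _ _)
  have hprod : A.valuation (x₂ * x₃) < M * M := by
    have : x₂ * x₃ = -m * (2 * l + 1) - x₁ * (x₂ + x₃) := by linear_combination h.e₂
    rw [this]
    refine (A.valuation.map_sub _ _).trans_lt (max_lt ?_ ?_)
    · rw [map_mul, A.valuation.map_neg]
      exact (mul_le_mul' le_rfl hl2one).trans_lt (mul_lt_mul_of_pos_right hm hMpos)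
    · rw [map_mul]
      calc A.valuation x₁ * A.valuation (x₂ + x₃) ≤ A.valuation x₁ * (M * M) := by gcongr
        _ < 1 * (M * M) := mul_lt_mul_of_pos_right h1 (mul_pos hMpos hMpos)
        _ = _ := one_mul _
  rcases le_or_gt (A.valuation l) 1 with hl | hl
  · rw [hM, max_eq_left hl, one_mul, map_mul] at hprod
    exact hprod.not_ge (one_le_mul h2 h3)
  rw [hM, max_eq_right hl.le] at hprod
  have hl2 : A.valuation (l ^ 2 + l) = A.valuation l ^ 2 := by
    rw [← map_pow]
    apply A.valuation.map_add_eq_of_lt_left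
    rw [map_pow]
    exact lt_self_pow₀ hl (by norm_num)
  have : A.valuation l ^ 2 ≤ A.valuation x₂ * A.valuation x₃ := by
    rw [← hl2, ← h.e₁]
    refine A.valuation.map_add_le (A.valuation.map_add_le ?_ ?_) ?_
    · exact h1.le.trans (one_le_mul h2 h3)
    · exact le_mul_of_one_le_right' h3
    · exact le_mul_of_one_le_left' h2
  rw [sq, ← map_mul A.valuation x₂] at this
  exact hprod.not_ge this

include hc h in
/-- Two points off the identity component, oriented. -/
lemma prod_bbg_aux (h1 : A.valuation x₁ < 1) (h3 : 1 ≤ A.valuation x₃)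
    (h21 : A.valuation x₂ ≤ A.valuation x₁)
    (hor : A.valuation (l * x₁ + m) ≤ A.valuation (l * x₁ + m + x₁)) :
    thetaLine A hc0 l m x₁ * thetaLine A hc0 l m x₂ * thetaLine A hc0 l m x₃ = 1 := by
  have h2 := h21.trans_lt h1
  obtain ⟨hy1, hyx1⟩ := bad_facts hc h.equation₁ h1
  obtain ⟨he3, -, hy3, hy30, hyx30⟩ := good_facts hc h.equation₃ h3
  have hllv : 1 ≤ A.valuation (l * (l + 1)) := by
    have : l * (l + 1) = x₁ + x₂ + x₃ := by rw [h.e₁]; ring
    rw [this]
    refine h3.trans (le_of_eq (A.valuation.map_add_eq_of_lt_right ?_).symm)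
    exact (A.valuation.map_add_lt h1 h2).trans_le h3
  have hlv : A.valuation (l + 1) = A.valuation l ∧ 1 ≤ A.valuation l := by
    rw [map_mul] at hllv
    rcases lt_trichotomy (A.valuation l) 1 with hl | hl | hl
    · rw [A.valuation.map_add_eq_of_lt_right (by rwa [map_one]), map_one, mul_one] at hllv
      exact absurd hllv hl.not_ge
    · refine ⟨le_antisymm ?_ ?_, hl.ge⟩
      · exact A.valuation.map_add_le le_rfl (by rw [map_one, hl])
      · rw [hl, one_mul] at hllv; rwa [hl]
    · exact ⟨A.valuation.map_add_eq_of_lt_left (by rwa [map_one]), hl.le⟩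
  obtain ⟨hlv1, hl1⟩ := hlv
  have hlpos : 0 < A.valuation l := zero_lt_one.trans_le hl1
  have hl0 : l ≠ 0 := by rintro rfl; simp at hlpos
  have hl10 : l + 1 ≠ 0 := by intro h0; rw [h0, map_zero] at hlv1; exact hlpos.ne hlv1
  have hyx10 : l * x₁ + m + x₁ ≠ 0 := by
    intro h0
    rw [h0, map_zero, le_zero_iff, map_eq_zero] at hor
    rcases y_ne_zero_or hc0 h.equation₁ with h' | h' <;> contradiction
  have hw : 0 < A.valuation (l * x₁ + m + x₁) :=
    zero_lt_iff.mpr (A.valuation.ne_zero_iff.mpr hyx10)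
  have hx1w : A.valuation x₁ ≤ A.valuation (l * x₁ + m + x₁) := by
    have := A.valuation.map_sub (l * x₁ + m + x₁) (l * x₁ + m)
    rwa [add_sub_cancel_left, max_eq_left hor] at this
  have happ : A.valuation ((l + 1) * (l * x₂ + m) - (-(l * (l * x₁ + m + x₁)))) <
      A.valuation (-(l * (l * x₁ + m + x₁))) := by
    have hS : (l + 1) * (l * x₂ + m) - (-(l * (l * x₁ + m + x₁))) =
        x₁ * x₁ + x₁ * x₂ + x₂ * x₂ := by
      linear_combination h.e₂ - (x₁ + x₂) * h.e₁
    rw [hS, A.valuation.map_neg, map_mul]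
    calc A.valuation (x₁ * x₁ + x₁ * x₂ + x₂ * x₂)
        ≤ A.valuation x₁ * A.valuation x₁ := by
          refine A.valuation.map_add_le (A.valuation.map_add_le ?_ ?_) ?_ <;> rw [map_mul] <;>
            gcongr
      _ ≤ A.valuation x₁ * A.valuation (l * x₁ + m + x₁) := by gcongr
      _ < A.valuation l * A.valuation (l * x₁ + m + x₁) :=
          mul_lt_mul_of_pos_right (h1.trans_le hl1) hw
  have hy20 : l * x₂ + m ≠ 0 := right_ne_zero_of_mul (ne_zero_of_approx happ)
  have hvy2 : A.valuation (l * x₂ + m) = A.valuation (l * x₁ + m + x₁) := by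
    have := valuation_eq_of_approx happ
    rw [A.valuation.map_neg, map_mul, map_mul, hlv1] at this
    exact mul_left_cancel₀ hlpos.ne' this
  have hor2 : A.valuation (l * x₂ + m + x₂) ≤ A.valuation (l * x₂ + m) :=
    A.valuation.map_add_le le_rfl (hvy2 ▸ h21.trans hx1w)
  have hr : cl A c hc0 ((l * x₃ + m) * (l + 1)) = cl A c hc0 (l * (l * x₃ + m + x₃)) := by
    apply cl_eq_of_approx
    have : (l * x₃ + m) * (l + 1) - l * (l * x₃ + m + x₃) = m := by ring
    rw [this, map_mul, ← he3]
    have hm : m = (l * x₁ + m) - l * x₁ := by ring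
    rw [hm]
    refine (A.valuation.map_sub _ _).trans_lt ?_
    calc max (A.valuation (l * x₁ + m)) (A.valuation (l * x₁)) < A.valuation l * 1 := by
          rw [mul_one, map_mul]
          exact max_lt (hy1.trans_le hl1)
            ((mul_lt_mul_of_pos_left h1 hlpos).trans_eq (mul_one _))
      _ ≤ _ := by
          have : l * x₁ + m - l * x₁ = m := by ring
          rw [this]; gcongr
  have hq : cl A c hc0 ((l + 1) * (l * x₂ + m)) =
      cl A c hc0 (-(l * (l * x₁ + m + x₁))) := cl_eq_of_approx hc0 happ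
  simp only [thetaLine]
  rw [thetaXY_left hc0 h1 hor, thetaXY_right hc0 hc h.equation₂ h2 hor2, thetaXY_good hc0 h3,
    cl_div hc0 hc0 hy20, cl_div hc0 hy30 hyx30]
  rw [cl_mul hc0 hy30 hl10, cl_mul hc0 hl0 hyx30] at hr
  rw [cl_mul hc0 hl10 hy20, ← mul_neg, cl_mul hc0 hl0 (neg_ne_zero.mpr hyx10)] at hq
  have hneg : cl A c hc0 (l * x₁ + m + x₁) * cl A c hc0 c =
      cl A c hc0 (-(l * x₁ + m + x₁)) := by
    rw [← cl_mul hc0 hyx10 hc0, ← neg_mul_neg,
      cl_mul hc0 (neg_ne_zero.mpr hyx10) (neg_ne_zero.mpr hc0), cl_neg_c, mul_one]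
  rw [div_eq_mul_inv, div_eq_mul_inv]
  generalize cl A c hc0 (l * x₁ + m + x₁) = a at *
  generalize cl A c hc0 (-(l * x₁ + m + x₁)) = a' at *
  generalize cl A c hc0 (l * x₂ + m) = b at *
  generalize cl A c hc0 (l * x₃ + m) = d at *
  generalize cl A c hc0 (l * x₃ + m + x₃) = d' at *
  generalize cl A c hc0 (l + 1) = e at *
  generalize cl A c hc0 l = f at *
  generalize cl A c hc0 c = g at *
  calc a * (g * b⁻¹) * (d * d'⁻¹) = (a * g) * (d * e) * (e * b)⁻¹ * d'⁻¹ := by
        have : (a * g) * (d * e) * (e * b)⁻¹ * d'⁻¹ =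
            a * (g * b⁻¹) * (d * d'⁻¹) * (e * e⁻¹) := by
          simp only [mul_inv_rev, mul_comm, mul_left_comm, mul_assoc]
        rw [this, mul_inv_cancel, mul_one]
    _ = 1 := by
        rw [hneg, hr, hq]
        have : a' * (f * d') * (f * a')⁻¹ * d'⁻¹ = (a' * a'⁻¹) * (f * f⁻¹) * (d' * d'⁻¹) := by
          simp only [mul_inv_rev, mul_comm, mul_left_comm, mul_assoc]
        rw [this, mul_inv_cancel, mul_inv_cancel, mul_inv_cancel, one_mul, one_mul]

include hc in
lemma thetaLine_negLine {x : K} (he : (l * x + m) * (l * x + m + x) = x ^ 3 + c) :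
    thetaLine A hc0 (-1 - l) (-m) x = (thetaLine A hc0 l m x)⁻¹ := by
  rw [thetaLine, thetaLine, ← thetaXY_neg hc0 hc he]
  congr 1
  ring

include hc h in
/-- Two points off the identity component. -/
lemma prod_bbg (h1 : A.valuation x₁ < 1) (h2 : A.valuation x₂ < 1) (h3 : 1 ≤ A.valuation x₃) :
    thetaLine A hc0 l m x₁ * thetaLine A hc0 l m x₂ * thetaLine A hc0 l m x₃ = 1 := by
  wlog h21 : A.valuation x₂ ≤ A.valuation x₁ generalizing x₁ x₂
  · rw [mul_comm (thetaLine A hc0 l m x₁)]
    exact this h.swap₁₂ h2 h1 (le_of_not_ge h21)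
  wlog hor : A.valuation (l * x₁ + m) ≤ A.valuation (l * x₁ + m + x₁) generalizing l m
  · have key := this (l := -1 - l) (m := -m) h.negLine (by
      have e1 : (-1 - l) * x₁ + -m = -(l * x₁ + m + x₁) := by ring
      have e2 : (-1 - l) * x₁ + -m + x₁ = -(l * x₁ + m) := by ring
      rw [e2, e1, A.valuation.map_neg, A.valuation.map_neg]
      exact le_of_not_ge hor)
    rwa [thetaLine_negLine hc0 hc h.equation₁, thetaLine_negLine hc0 hc h.equation₂,
      thetaLine_negLine hc0 hc h.equation₃, ← mul_inv, ← mul_inv, inv_eq_one] at key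
  exact prod_bbg_aux hc0 hc h h1 h3 h21 hor

include hc h in
/-- All three points off the identity component, oriented so that `v l < 1`. -/
lemma prod_bbb_aux (h1 : A.valuation x₁ < 1) (h2 : A.valuation x₂ < 1)
    (h3 : A.valuation x₃ < 1) (hl : A.valuation l < 1)
    (h32 : A.valuation x₃ ≤ A.valuation x₂) (h21 : A.valuation x₂ ≤ A.valuation x₁) :
    thetaLine A hc0 l m x₁ * thetaLine A hc0 l m x₂ * thetaLine A hc0 l m x₃ = 1 := by
  have hl1 : A.valuation (l + 1) = 1 := by
    rw [A.valuation.map_add_eq_of_lt_right (by rwa [map_one]), map_one]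
  have hm1 : A.valuation m < 1 := by
    have hm : m = (l * x₁ + m) - l * x₁ := by ring
    rw [hm]
    refine (A.valuation.map_sub _ _).trans_lt (max_lt (bad_facts hc h.equation₁ h1).1 ?_)
    rw [map_mul]
    exact mul_lt_one_of_nonneg_of_lt_one_left zero_le hl h1.le
  have hl21 : A.valuation (2 * l + 1) = 1 := by
    rw [A.valuation.map_add_eq_of_lt_right, map_one]
    rw [map_one, map_mul]
    exact (mul_le_of_le_one_left zero_le
      ((A.valuation_le_one_iff _).mpr (natCast_mem A.toSubring 2))).trans_lt hl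
  -- points beyond `m`
  have hbig : ∀ {x : K}, A.valuation x < 1 → A.valuation m < A.valuation x →
      (l * x + m) * (l * x + m + x) = x ^ 3 + c → thetaLine A hc0 l m x = cl A c hc0 x := by
    intro x hx hmx he
    have hy : A.valuation (l * x + m) < A.valuation x := by
      refine A.valuation.map_add_lt ?_ hmx
      rw [map_mul]
      exact mul_lt_of_lt_one_left (lt_of_le_of_lt zero_le hmx) hl
    have hyx : A.valuation (l * x + m + x) = A.valuation x :=
      A.valuation.map_add_eq_of_lt_right hy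
    rw [thetaLine, thetaXY_left hc0 hx (hyx ▸ hy.le)]
    exact cl_eq_of_approx hc0 (by rwa [add_sub_cancel_right])
  have hx2pos : 0 < A.valuation x₂ := by
    rw [zero_lt_iff, Ne, map_eq_zero]
    intro h0
    have hx30 : x₃ = 0 := by
      rw [h0, map_zero] at h32
      exact (map_eq_zero A.valuation).mp (le_antisymm h32 zero_le)
    have hm : -m * (2 * l + 1) = 0 := by rw [← h.e₂, h0, hx30]; ring
    have h2l : 2 * l + 1 ≠ 0 := by intro hz; rw [hz, map_zero] at hl21; exact zero_ne_one hl21
    have hm0 : m = 0 := neg_eq_zero.mp ((mul_eq_zero.mp hm).resolve_right h2l)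
    have := h.e₃
    rw [h0, hm0] at this
    simp at this
    exact hc0 this
  have hx1pos : 0 < A.valuation x₁ := hx2pos.trans_le h21
  have he2 : A.valuation (x₁ * x₂ + x₁ * x₃ + x₂ * x₃) = A.valuation m := by
    rw [h.e₂, map_mul, A.valuation.map_neg, hl21, mul_one]
  have hmx12 : A.valuation m ≤ A.valuation x₁ * A.valuation x₂ := by
    rw [← he2]
    refine A.valuation.map_add_le (A.valuation.map_add_le ?_ ?_) ?_ <;> rw [map_mul]
    · exact mul_le_mul' le_rfl h32
    · exact mul_le_mul' h21 h32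
  have hmx2 : A.valuation m < A.valuation x₂ :=
    hmx12.trans_lt (mul_lt_of_lt_one_left hx2pos h1)
  have hx10 : x₁ ≠ 0 := (A.valuation.ne_zero_iff).mp hx1pos.ne'
  have hx20 : x₂ ≠ 0 := (A.valuation.ne_zero_iff).mp hx2pos.ne'
  rw [hbig h1 (hmx2.trans_le h21) h.equation₁, hbig h2 hmx2 h.equation₂]
  rcases lt_or_ge (A.valuation m) (A.valuation x₃) with hm3 | hm3
  · have hx30 : x₃ ≠ 0 := (A.valuation.ne_zero_iff).mp (lt_of_le_of_lt zero_le hm3).ne'
    rw [hbig h3 hm3 h.equation₃, ← cl_mul hc0 hx10 hx20,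
      ← cl_mul hc0 (mul_ne_zero hx10 hx20) hx30, h.e₃, ← cl_neg_c (A := A) hc0]
    apply cl_eq_of_approx
    have hlt : A.valuation (m ^ 2) < A.valuation (m ^ 2 - c) := by
      rw [← h.e₃, map_mul, map_mul, map_pow, sq]
      rcases eq_or_lt_of_le (zero_le : 0 ≤ A.valuation m) with h0 | h0
      · rw [← h0, zero_mul]
        exact mul_pos (mul_pos hx1pos hx2pos) (h0.trans_lt hm3)
      · exact (mul_le_mul' hmx12 le_rfl).trans_lt
          (mul_lt_mul_of_pos_left hm3 (mul_pos hx1pos hx2pos))
    have := A.valuation.map_add_eq_of_lt_left (x := m ^ 2 - c) (y := -(m ^ 2))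
      (by rwa [A.valuation.map_neg])
    have e : m ^ 2 - c + -(m ^ 2) = -c := by ring
    rw [e] at this
    have e' : m ^ 2 - c - -c = m ^ 2 := by ring
    rwa [e', this]
  · have hmpos : 0 < A.valuation m := by
      rw [zero_lt_iff]
      intro h0
      rw [h0] at hm3
      have hx30 : x₃ = 0 := (map_eq_zero A.valuation).mp (le_antisymm hm3 zero_le)
      have := h.e₃
      rw [hx30, (map_eq_zero A.valuation).mp h0] at this
      simp at this
      exact hc0 this
    have hm0 : m ≠ 0 := (A.valuation.ne_zero_iff).mp hmpos.ne'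
    have hlx : A.valuation (l * x₃) < A.valuation m := by
      rw [map_mul]
      exact (mul_le_mul' le_rfl hm3).trans_lt (mul_lt_of_lt_one_left hmpos hl)
    have hy3 : A.valuation (l * x₃ + m) = A.valuation m :=
      A.valuation.map_add_eq_of_lt_right hlx
    have hyx3 : A.valuation (l * x₃ + m + x₃) ≤ A.valuation (l * x₃ + m) :=
      A.valuation.map_add_le le_rfl (hy3 ▸ hm3)
    have hy30 : l * x₃ + m ≠ 0 := (A.valuation.ne_zero_iff).mp (hy3 ▸ hmpos.ne')
    have h12 : cl A c hc0 (x₁ * x₂) = cl A c hc0 (-m) := by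
      apply cl_eq_of_approx
      have e : x₁ * x₂ - -m = -(x₁ * x₃ + x₂ * x₃) + -(2 * l * m) := by
        linear_combination h.e₂
      rw [e, A.valuation.map_neg]
      refine A.valuation.map_add_lt ?_ ?_
      · rw [A.valuation.map_neg]
        refine A.valuation.map_add_lt ?_ ?_ <;> rw [map_mul]
        · exact (mul_le_mul' le_rfl hm3).trans_lt (mul_lt_of_lt_one_left hmpos h1)
        · exact (mul_le_mul' le_rfl hm3).trans_lt (mul_lt_of_lt_one_left hmpos h2)
      · rw [A.valuation.map_neg, map_mul]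
        refine mul_lt_of_lt_one_left hmpos ?_
        rw [map_mul]
        exact (mul_le_of_le_one_left zero_le
          ((A.valuation_le_one_iff _).mpr (natCast_mem A.toSubring 2))).trans_lt hl
    rw [thetaLine, thetaXY_right hc0 hc h.equation₃ h3 hyx3, ← cl_mul hc0 hx10 hx20, h12,
      cl_div hc0 hc0 hy30, cl_eq_of_approx hc0 (b := m) (a := l * x₃ + m)
        (by rwa [add_sub_cancel_right]), ← cl_div hc0 hc0 hm0,
      ← cl_mul hc0 (neg_ne_zero.mpr hm0) (div_ne_zero hc0 hm0)]
    convert cl_neg_c (A := A) hc0 using 2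
    field_simp

include hc h in
/-- All three points off the identity component, ordered. -/
lemma prod_bbb_ordered (h1 : A.valuation x₁ < 1) (h2 : A.valuation x₂ < 1)
    (h3 : A.valuation x₃ < 1) (h32 : A.valuation x₃ ≤ A.valuation x₂)
    (h21 : A.valuation x₂ ≤ A.valuation x₁) :
    thetaLine A hc0 l m x₁ * thetaLine A hc0 l m x₂ * thetaLine A hc0 l m x₃ = 1 := by
  wlog hl : A.valuation l < 1 generalizing l m
  · have hl' : A.valuation (-1 - l) < 1 := by
      have hll : A.valuation (l * (l + 1)) < 1 := by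
        have e : l * (l + 1) = x₁ + x₂ + x₃ := by rw [h.e₁]; ring
        rw [e]
        exact A.valuation.map_add_lt (A.valuation.map_add_lt h1 h2) h3
      have e : -1 - l = -(l + 1) := by ring
      rw [e, A.valuation.map_neg]
      by_contra hge
      rw [map_mul] at hll
      exact hll.not_ge (one_le_mul (le_of_not_gt hl) (le_of_not_gt hge))
    have key := this (l := -1 - l) (m := -m) h.negLine hl'
    rwa [thetaLine_negLine hc0 hc h.equation₁, thetaLine_negLine hc0 hc h.equation₂,
      thetaLine_negLine hc0 hc h.equation₃, ← mul_inv, ← mul_inv, inv_eq_one] at key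
  exact prod_bbb_aux hc0 hc h h1 h2 h3 hl h32 h21

include hc h in
/-- All three points off the identity component. -/
lemma prod_bbb (h1 : A.valuation x₁ < 1) (h2 : A.valuation x₂ < 1) (h3 : A.valuation x₃ < 1) :
    thetaLine A hc0 l m x₁ * thetaLine A hc0 l m x₂ * thetaLine A hc0 l m x₃ = 1 := by
  rcases le_total (A.valuation x₂) (A.valuation x₁) with h21 | h12
  · rcases le_total (A.valuation x₃) (A.valuation x₂) with h32 | h23
    · exact prod_bbb_ordered hc0 hc h h1 h2 h3 h32 h21
    · rcases le_total (A.valuation x₃) (A.valuation x₁) with h31 | h13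
      · rw [mul_right_comm]
        exact prod_bbb_ordered hc0 hc h.swap₂₃ h1 h3 h2 h23 h31
      · rw [mul_comm, ← mul_assoc]
        exact prod_bbb_ordered hc0 hc h.swap₂₃.swap₁₂ h3 h1 h2 h21 h13
  · rw [mul_comm (thetaLine A hc0 l m x₁)]
    rcases le_total (A.valuation x₃) (A.valuation x₁) with h31 | h13
    · exact prod_bbb_ordered hc0 hc h.swap₁₂ h2 h1 h3 h31 h12
    · rcases le_total (A.valuation x₃) (A.valuation x₂) with h32 | h23
      · rw [mul_right_comm]
        exact prod_bbb_ordered hc0 hc h.swap₁₂.swap₂₃ h2 h3 h1 h13 h32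
      · rw [mul_comm, ← mul_assoc]
        exact prod_bbb_ordered hc0 hc h.swap₁₂.swap₂₃.swap₁₂ h3 h2 h1 h12 h23

include hc h in
/-- Theta is multiplicative on collinear triples. -/
theorem prod_collinear :
    thetaLine A hc0 l m x₁ * thetaLine A hc0 l m x₂ * thetaLine A hc0 l m x₃ = 1 := by
  rcases lt_or_ge (A.valuation x₁) 1 with h1 | h1 <;>
    rcases lt_or_ge (A.valuation x₂) 1 with h2 | h2 <;>
    rcases lt_or_ge (A.valuation x₃) 1 with h3 | h3
  · exact prod_bbb hc0 hc h h1 h2 h3
  · exact prod_bbg hc0 hc h h1 h2 h3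
  · rw [mul_right_comm]
    exact prod_bbg hc0 hc h.swap₂₃ h1 h3 h2
  · exact (not_bgg hc h h1 h2 h3).elim
  · rw [mul_assoc, mul_comm]
    exact prod_bbg hc0 hc h.swap₁₂.swap₂₃ h2 h3 h1
  · exact (not_bgg hc h.swap₁₂ h2 h1 h3).elim
  · exact (not_bgg hc h.swap₂₃.swap₁₂ h3 h1 h2).elim
  · exact prod_ggg hc0 hc h h1 h2 h3

end collinear

/-! ### The homomorphism -/

lemma collinear_slope [DecidableEq K] {x₁ x₂ y₁ y₂ : K}
    (h₁ : (tateModel c).toAffine.Equation x₁ y₁) (h₂ : (tateModel c).toAffine.Equation x₂ y₂)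
    (hxy : ¬(x₁ = x₂ ∧ y₁ = (tateModel c).toAffine.negY x₂ y₂)) :
    Collinear c x₁ x₂ ((tateModel c).toAffine.addX x₁ x₂
        ((tateModel c).toAffine.slope x₁ x₂ y₁ y₂))
      ((tateModel c).toAffine.slope x₁ x₂ y₁ y₂)
      (y₁ - (tateModel c).toAffine.slope x₁ x₂ y₁ y₂ * x₁) ∧
      y₂ = (tateModel c).toAffine.slope x₁ x₂ y₁ y₂ * (x₂ - x₁) + y₁ := by
  have hp := Affine.addPolynomial_slope h₁ h₂ hxy
  rw [Affine.addPolynomial_eq, neg_inj, Cubic.prod_X_sub_C_eq, Cubic.toPoly_injective] at hp
  simp only [Cubic.mk.injEq, tateModel] at hp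
  obtain ⟨-, hb, hcc, hd⟩ := hp
  refine ⟨⟨?_, ?_, ?_⟩, ?_⟩
  · simp only [tateModel]; linear_combination hb
  · simp only [tateModel]; linear_combination -hcc
  · simp only [tateModel]; linear_combination hd
  · by_cases hx : x₁ = x₂
    · have hy : y₁ ≠ (tateModel c).toAffine.negY x₂ y₂ := fun h => hxy ⟨hx, h⟩
      rw [← Affine.Y_eq_of_Y_ne h₁ h₂ hx hy, hx]
      ring
    · rw [Affine.slope_of_X_ne hx]
      have := sub_ne_zero.mpr hx
      field_simp
      ring

variable (A) in
/-- Theta on points. -/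
def thetaFun : (tateModel c).toAffine.Point → ThetaTarget A c hc0
  | 0 => 1
  | .some x y _ => thetaXY A hc0 x y

lemma thetaFun_neg (hc : A.valuation c < 1) (P : (tateModel c).toAffine.Point) :
    thetaFun A hc0 (-P) = (thetaFun A hc0 P)⁻¹ := by
  rcases P with _ | ⟨x, y, h⟩
  · exact inv_one.symm
  · rw [Affine.Point.neg_some]
    show thetaXY A hc0 x ((tateModel c).toAffine.negY x y) = (thetaXY A hc0 x y)⁻¹
    rw [tateModel_negY, thetaXY_neg hc0 hc ((tateModel_equation_iff c x y).mp h.left)]

lemma thetaFun_add [DecidableEq K] (hc : A.valuation c < 1)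
    (P Q : (tateModel c).toAffine.Point) :
    thetaFun A hc0 (P + Q) = thetaFun A hc0 P * thetaFun A hc0 Q := by
  rcases P with _ | ⟨x₁, y₁, h₁⟩
  · exact (one_mul _).symm
  rcases Q with _ | ⟨x₂, y₂, h₂⟩
  · exact (mul_one _).symm
  by_cases hxy : x₁ = x₂ ∧ y₁ = (tateModel c).toAffine.negY x₂ y₂
  · have hneg : (Affine.Point.some x₁ y₁ h₁) = -(Affine.Point.some x₂ y₂ h₂) := by
      rw [Affine.Point.neg_some]; simp [hxy.1, hxy.2]
    rw [hneg, neg_add_cancel, thetaFun_neg hc0 hc, inv_mul_cancel]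
    rfl
  · rw [Affine.Point.add_some hxy]
    obtain ⟨hcol, hy2⟩ := collinear_slope h₁.left h₂.left hxy
    have key := prod_collinear hc0 hc hcol
    set l := (tateModel c).toAffine.slope x₁ x₂ y₁ y₂
    set x₃ := (tateModel c).toAffine.addX x₁ x₂ l
    simp only [thetaLine] at key
    have e1 : l * x₁ + (y₁ - l * x₁) = y₁ := by ring
    have e2 : l * x₂ + (y₁ - l * x₁) = y₂ := by rw [hy2]; ring
    have e3 : l * x₃ + (y₁ - l * x₁) = (tateModel c).toAffine.negAddY x₁ x₂ y₁ l := by
      simp only [Affine.negAddY]; ring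
    rw [e1, e2, e3] at key
    have he3 := hcol.equation₃
    rw [e3] at he3
    show thetaXY A hc0 x₃ ((tateModel c).toAffine.addY x₁ x₂ y₁ l) = _
    rw [Affine.addY, tateModel_negY, thetaXY_neg hc0 hc he3]
    exact (eq_inv_of_mul_eq_one_left key).symm

variable (A) in
/-- **The theta homomorphism** of `y² + xy = x³ + c`. -/
def thetaHom [DecidableEq K] (hc : A.valuation c < 1) :
    (tateModel c).toAffine.Point →+ Additive (ThetaTarget A c hc0) :=
  AddMonoidHom.mk' (fun P => Additive.ofMul (thetaFun A hc0 P))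
    fun P Q => congrArg Additive.ofMul (thetaFun_add hc0 hc P Q)

/-! ### Classes -/

lemma cl_eq_one {a : K} (ha : a ≠ 0) (h : cl A c hc0 a = 1) :
    ∃ k : ℤ, A.valuation a = A.valuation c ^ k ∧
      (k = 0 → A.valuation (a - 1) < 1) := by
  rw [cl_of_ne hc0 ha, mkTarget_eq_one_iff, thetaKer, Subgroup.mem_sup] at h
  obtain ⟨u, hu, v, hv, huv⟩ := h
  rw [A.mem_principalUnitGroup_iff] at hu
  obtain ⟨k, rfl⟩ := Subgroup.mem_zpowers_iff.mp hv
  have hu1 : A.valuation (u : K) = 1 := by
    have := A.valuation.map_add_eq_of_lt_right (x := (u : K) - 1) (y := 1) (by rwa [map_one])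
    rwa [sub_add_cancel, map_one] at this
  have ha' : a = (u : K) * (-c) ^ k := by
    have := congrArg Units.val huv
    simpa using this.symm
  refine ⟨k, ?_, ?_⟩
  · rw [ha', map_mul, hu1, one_mul, map_zpow₀, A.valuation.map_neg]
  · rintro rfl
    rwa [ha', zpow_zero, mul_one]

/-- The kernel of theta is the kernel of reduction. -/
theorem thetaFun_eq_one_iff (hc : A.valuation c < 1) {x y : K}
    (h : (tateModel c).toAffine.Nonsingular x y) :
    thetaFun A hc0 (.some x y h) = 1 ↔ x ∉ A := by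
  show thetaXY A hc0 x y = 1 ↔ _
  have he := (tateModel_equation_iff c x y).mp h.left
  rw [← A.valuation_le_one_iff, not_le]
  rcases le_or_gt 1 (A.valuation x) with hx | hx
  · obtain ⟨heq, hsq, hy1, hy0, hyx0⟩ := good_facts hc he hx
    rw [thetaXY_good hc0 hx]
    have hypos : 0 < A.valuation y := zero_lt_one.trans_le hy1
    have hiff : A.valuation (y / (y + x) - 1) < 1 ↔ 1 < A.valuation x := by
      have e : y / (y + x) - 1 = -x / (y + x) := by field_simp; ring
      rw [e, map_div₀, A.valuation.map_neg, ← heq, div_lt_one₀ hypos]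
      refine ⟨fun hlt => ?_, fun hlt => ?_⟩
      · refine lt_of_le_of_ne hx fun hx1 => ?_
        rw [← hx1, one_pow] at hsq
        rw [← hx1] at hlt
        exact (one_lt_pow₀ hlt two_ne_zero).ne' hsq
      · by_contra hge
        rw [not_lt] at hge
        have := pow_le_pow_left₀ zero_le hge 2
        rw [hsq] at this
        exact this.not_gt (pow_lt_pow_right₀ hlt (by norm_num))
    rw [← hiff]
    constructor
    · intro h1
      obtain ⟨k, hk, hk0⟩ := cl_eq_one hc0 (div_ne_zero hy0 hyx0) h1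
      rw [map_div₀, ← heq, div_self hypos.ne'] at hk
      refine hk0 ?_
      rcases lt_trichotomy k 0 with hk' | hk' | hk'
      · exfalso
        have hcpos : 0 < A.valuation c := zero_lt_iff.mpr (A.valuation.ne_zero_iff.mpr hc0)
        exact (one_lt_zpow_of_neg₀ hcpos hc hk').ne hk
      · exact hk'
      · exfalso
        have hcpos : 0 < A.valuation c := zero_lt_iff.mpr (A.valuation.ne_zero_iff.mpr hc0)
        exact (zpow_lt_one₀ hcpos hc hk').ne hk.symm
    · intro h1
      rw [← cl_one (A := A) hc0]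
      exact cl_eq_of_approx hc0 (by rwa [map_one])
  · refine iff_of_false (fun h1 => ?_) hx.not_gt
    obtain ⟨hyv, hyxv⟩ := bad_facts hc he hx
    have hw := valuation_c_lt hc0 hc he hx
    have hcpos : 0 < A.valuation c := zero_lt_iff.mpr (A.valuation.ne_zero_iff.mpr hc0)
    have key : ∀ {a : K}, a ≠ 0 → A.valuation c < A.valuation a → A.valuation a < 1 →
        cl A c hc0 a ≠ 1 := by
      intro a ha hl hu h1
      obtain ⟨k, hk, -⟩ := cl_eq_one hc0 ha h1
      rw [hk] at hl hu
      rcases le_or_gt k 0 with hk' | hk'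
      · exact hu.not_ge (one_le_zpow_of_nonpos₀ hcpos hc.le hk')
      · exact hl.not_ge (by
          calc A.valuation c ^ k ≤ A.valuation c ^ (1 : ℤ) :=
                zpow_le_zpow_right_of_le_one₀ hcpos hc.le hk'
            _ = _ := zpow_one _)
    rcases le_or_gt (A.valuation y) (A.valuation (y + x)) with hle | hlt
    · rw [max_eq_right hle] at hw
      rw [thetaXY_left hc0 hx hle] at h1
      exact key ((A.valuation.ne_zero_iff).mp (hcpos.trans hw).ne') hw hyxv h1
    · rw [max_eq_left hlt.le] at hw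
      rw [thetaXY_right hc0 hc he hx hlt.le] at h1
      have hy0 : y ≠ 0 := (A.valuation.ne_zero_iff).mp (hcpos.trans hw).ne'
      refine key (div_ne_zero hc0 hy0) ?_ ?_ h1 <;> rw [map_div₀]
      · exact (lt_div_iff₀ (hcpos.trans hw)).mpr (mul_lt_of_lt_one_right hcpos hyv)
      · exact (div_lt_one₀ (hcpos.trans hw)).mpr hw

end Fermat.Agent.EC.TateTheta
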